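import Fermat.Agent.General.Flat.Ops
import Fermat.Agent.Deform.Points
import Fermat.Agent.DefRing.TestAlgebra

/-!
# The flat condition at a place

The flat condition at a place as a condition on coordinates over test algebras.
-/

set_option autoImplicit false

noncomputable section

namespace Fermat.Agent.General.Flat

open Fermat.Agent.DefRing Fermat.Agent.Deform IsLocalRing

local notation "Ω" => AlgebraicClosure ℚ

variable {A : ValuationSubring Ω} {B C : Type} [CommRing B] [CommRing C]

/-- A ring map applied to vectors. -/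
def mapVec (φ : B →+* C) : (Fin 2 → B) →+ (Fin 2 → C) := φ.toAddMonoidHom.compLeft (Fin 2)

theorem mapVec_act (φ : B →+* C) (e : A.decompositionSubgroup ℚ × Fin 2 × Fin 2 → B)
    (σ : A.decompositionSubgroup ℚ) (v : Fin 2 → B) :
    mapVec φ (mulVecAct e σ v) = mulVecAct (fun i => φ (e i)) σ (mapVec φ v) := by
  funext i
  fin_cases i <;> simp [mapVec, mulVecAct, matAt, Matrix.mulVec, dotProduct]

/-- Vectors indexed by the target, summed with their index as scalar. -/
def spanVec [Fintype C] (φ : B →+* C) : (C → Fin 2 → B) →+ (Fin 2 → C) where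
  toFun w := ∑ c, c • mapVec φ (w c)
  map_zero' := by simp
  map_add' w w' := by simp [map_add, smul_add, Finset.sum_add_distrib]

theorem spanVec_surjective [Fintype C] (φ : B →+* C) : Function.Surjective (spanVec φ) := by
  classical
  intro v
  refine ⟨fun c i => if c = v i then 1 else 0, funext fun i => ?_⟩
  show (∑ c, c • mapVec φ (fun i => if c = v i then (1 : B) else 0)) i = v i
  simp [mapVec, apply_ite φ]

/-- The condition passes along a ring map. -/
theorem FlatMem.map [Finite B] [Finite C] {e : A.decompositionSubgroup ℚ × Fin 2 × Fin 2 → B}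
    (h : FlatMem A e) (φ : B →+* C) : FlatMem A (fun i => φ (e i)) := by
  have := Fintype.ofFinite C
  have hprod : HasModelAt A fun σ (w : C → Fin 2 → B) c => mulVecAct e σ (w c) :=
    hasModelAt_of_maps (ι := C) (V := fun _ => Fin 2 → B) (fun _ => h)
      (fun c => Pi.evalAddMonoidHom (fun _ => Fin 2 → B) c) (fun _ _ _ => rfl)
      fun x y hxy => funext hxy
  refine hasModelAt_of_surjective hprod (spanVec φ) (spanVec_surjective φ) fun σ w => ?_
  show ∑ c, c • mapVec φ (mulVecAct e σ (w c)) = mulVecAct _ σ (∑ c, c • mapVec φ (w c))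
  simp only [mulVecAct, Matrix.mulVec_sum, Matrix.mulVec_smul]
  exact Finset.sum_congr rfl fun c _ => congrArg (c • ·) (mapVec_act φ e σ (w c))

/-- The condition descends along an injection. -/
theorem FlatMem.descend {e : A.decompositionSubgroup ℚ × Fin 2 × Fin 2 → B} (φ : B →+* C)
    (hφ : Function.Injective φ) (h : FlatMem A (fun i => φ (e i))) : FlatMem A e :=
  hasModelAt_of_maps (ι := Unit) (V := fun _ => Fin 2 → C) (fun _ => h) (fun _ => mapVec φ)
    (fun _ σ v => mapVec_act φ e σ v) fun _ _ hxy => funext fun i => hφ (congrFun (hxy ()) i)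

/-- The condition passes to a fibre product. -/
theorem FlatMem.fibre {P : Type} [CommRing P]
    {e : A.decompositionSubgroup ℚ × Fin 2 × Fin 2 → P} (f : P →+* B) (g : P →+* C)
    (hinj : Function.Injective fun x => (f x, g x))
    (hf : FlatMem A fun i => f (e i)) (hg : FlatMem A fun i => g (e i)) : FlatMem A e := by
  obtain ⟨M, hM⟩ := hf
  obtain ⟨N, hN⟩ := hg
  have h1 := hM.map_pullback (mapVec f) fun σ v => mapVec_act f e σ v
  have h2 := hN.map_pullback (mapVec g) fun σ v => mapVec_act g e σ v
  refine hasModelAt_of_family (ι := Bool)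
    (fun b => cond b (M.map (pullbackAt A (mapVec f))) (N.map (pullbackAt A (mapVec g))))
    (Bool.rec h2.1 h1.1) (Bool.rec h2.2.1 h1.2.1) (Bool.rec h2.2.2 h1.2.2) fun x y hxy => ?_
  have e1 := hM.sep _ _ fun u hu => hxy true _ ⟨u, hu, rfl⟩
  have e2 := hN.sep _ _ fun u hu => hxy false _ ⟨u, hu, rfl⟩
  exact funext fun i => hinj (Prod.ext (congrFun e1 i) (congrFun e2 i))

/-- **The flat condition at a place.** -/
def flatClosed (O : Type) [CommRing O] [IsLocalRing O] [Finite (ResidueField O)]
    (A : ValuationSubring Ω) : Closed O (A.decompositionSubgroup ℚ × Fin 2 × Fin 2) where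
  mem _B _ _ _ e := FlatMem A e
  map B C _ _ _ _ _ _ hB hC φ e h := by
    have := finite_of_isArtinianTestAlgebra hB
    have := finite_of_isArtinianTestAlgebra hC
    exact FlatMem.map h φ.toRingHom
  descend B C _ _ _ _ _ _ _ _ φ hi e h := FlatMem.descend φ.toRingHom hi h
  fibre B C D P _ _ _ _ _ _ _ _ _ _ _ _ _ _ _ _ f g pB pC _ hi _ e hb hc :=
    FlatMem.fibre pB.toRingHom pC.toRingHom hi hb hc

theorem mem_flatClosed {O : Type} [CommRing O] [IsLocalRing O] [Finite (ResidueField O)]
    {B : Type} [CommRing B] [IsLocalRing B] [Algebra O B]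
    (e : A.decompositionSubgroup ℚ × Fin 2 × Fin 2 → B) :
    (flatClosed O A).mem e ↔ HasModelAt A (mulVecAct e) := Iff.rfl

end Fermat.Agent.General.Flat

end
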