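import Fermat.Agent.General.Flat.TorsionRep
import Fermat.Agent.General.Flat.Closed
import Fermat.Agent.Engine.LoweringSetting

/-!
# The flat condition at the top levels

The flat condition holds for the Hecke algebras of the top levels prime to `p`.
-/

set_option autoImplicit false

noncomputable section

open IsLocalRing Fermat.Agent.DefRing Fermat.Agent.Deform Fermat.Agent.Engine

namespace Fermat.Agent.General.Flat

/-- In a test algebra `p` is nilpotent. -/
theorem exists_natCast_pow_eq_zero {O B : Type} [CommRing O] [IsLocalRing O] [CommRing B]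
    [IsLocalRing B] [Algebra O B] (hB : GaloisRep.IsArtinianTestAlgebra O B) {p : ℕ}
    (hp : (p : O) ∈ maximalIdeal O) : ∃ n, (p : B) ^ n = 0 := by
  have := hB.isArtinian
  have := hB.isLocalHom
  obtain ⟨n, hn⟩ := isNilpotent_maximalIdeal_of_isArtinianRing (A := B)
  refine ⟨n, ?_⟩
  have h : (p : B) ∈ maximalIdeal B := by
    rw [← map_natCast (algebraMap O B)]
    exact fun hu => hp (isUnit_of_map_unit (algebraMap O B) _ hu)
  have h' := Ideal.pow_mem_pow h n
  rwa [hn, Ideal.zero_eq_bot, Ideal.mem_bot] at h'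

open Engine.TRep in
/-- A conjugate of the representation in a complete algebra satisfies the condition. -/
theorem mem'_flatClosed {N p : ℕ} [NeZero N] [Fact p.Prime] {I : EigenRep.RepInputs N p}
    {O : Type} [CommRing O] [IsLocalRing O] [Finite (ResidueField O)] (hp : (p : O) ∈ maximalIdeal O)
    {A : ValuationSubring (AlgebraicClosure ℚ)} (hA : A.LiesOverPrime p)
    {Λ : Type} [CommRing Λ] {ι : ℤ_[p] →+* Λ} {S : Finset ℕ}
    {m : Ideal (HeckeModule.AwayPoly Λ (↑S : Set ℕ))} [m.IsPrime] {R : MRep (TLoc I ι S m)}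
    (hR : IsTorsionRep I ι S m R) (hJ : HasTorsionModels N p)
    {C : Type} [CommRing C] [IsLocalRing C] [Algebra O C] (F : TLoc I ι S m →+* C)
    (g : (Matrix (Fin 2) (Fin 2) C)ˣ) :
    (flatClosed O A).Mem' (coordsOf fun σ : A.decompositionSubgroup ℚ =>
      g.1 * mapRep F R σ * g⁻¹.1) := by
  intro B _ _ _ hB q hq hqs
  have := finite_of_isArtinianTestAlgebra hB
  obtain ⟨n, hn⟩ := exists_natCast_pow_eq_zero hB hp
  let g' : (Matrix (Fin 2) (Fin 2) B)ˣ := Units.map (q : C →+* B).mapMatrix.toMonoidHom g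
  let ρ : MRep B :=
    { toFun := fun σ => g'.1 * mapRep ((q : C →+* B).comp F) R σ * g'⁻¹.1
      map_one' := by rw [map_one, mul_one, Units.mul_inv]
      map_mul' := fun σ τ => by
        simp only [map_mul, mul_assoc]
        rw [← mul_assoc (g'⁻¹ : GL (Fin 2) B).val g'.1, Units.inv_mul, one_mul] }
  obtain ⟨M, hM⟩ := exists_isModel_conj g' (ρ' := ρ) (fun σ => rfl)
    (exists_isModel_mapRep hR hJ ((q : C →+* B).comp F) hn)
  rw [mem_flatClosed]
  convert hasModelAt_of_isModel ⟨Fact.out, hA⟩ hM using 1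
  funext σ v
  refine congrArg (fun X => Matrix.mulVec X v) ?_
  change (q : C →+* B).mapMatrix (g.1 * mapRep F R σ * g⁻¹.1) =
    (q : C →+* B).mapMatrix g.1 * mapRep ((q : C →+* B).comp F) R σ *
      (q : C →+* B).mapMatrix g⁻¹.1
  rw [map_mul, map_mul]
  rfl

variable {O : Type} [CommRing O] [IsLocalRing O] [Finite (ResidueField O)] {p : ℕ}
  [Fact p.Prime] {ι₀ : ℤ_[p] →+* O} {N₀ : ℕ} {lam : ℕ → O} {L₀ : LevelData O}

/-- **The flat condition at the top levels.** -/
theorem topPlaceHyp_flat (H : BaseSetting p ι₀ N₀ lam L₀) (hN₀ : ¬ p ∣ N₀)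
    (hA : L₀.place.LiesOverPrime p) (hcl : L₀.atPlace = flatClosed O L₀.place)
    (hJ : ∀ (N : ℕ) [NeZero N], ¬ p ∣ N → HasTorsionModels N p) :
    TopPlaceHyp p ι₀ N₀ lam L₀ := by
  intro N _ hes hdvd hpN S hS Λ _ _ _ _ _ _ _ _ _ hsΛ R hR C _ _ _ _ _ _ _ _ _ F g
  have hN : ¬ p ∣ N := fun h => by
    obtain ⟨c, rfl⟩ := hdvd
    rw [Nat.mul_div_cancel_left _ (Nat.pos_of_ne_zero (left_ne_zero_of_mul (NeZero.ne (N₀ * c))))]
      at hpN
    exact ((Fact.out : p.Prime).dvd_mul.1 h).elim hN₀ hpN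
  rw [hcl]
  have := mem'_flatClosed (O := O) (I := TRep.stdInputs hes) H.p_mem hA hR (hJ N hN) (F : _ →+* C) g
  exact this

end Fermat.Agent.General.Flat

end
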