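import Fermat.Agent.General.Flat.EllModel
import Fermat.Agent.General.Flat.TopPlaceFlat
import Fermat.Agent.Engine.Top.CurvePoint
import Fermat.Agent.Engine.TRep.Ext
import Fermat.Agent.EllLocal.OrdinaryTrace

/-!
# The Tate module of a supersingular curve

The Tate module of a supersingular curve satisfies the flat condition.
-/

set_option autoImplicit false

noncomputable section

namespace Fermat.Agent.General.Flat

open IsLocalRing Fermat.Agent.DefRing Fermat.Agent.Deform Fermat.Agent.Engine Fermat.Agent.EllLocal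
  Fermat.Agent.RowS56 Matrix
open scoped WeierstrassCurve.Affine

attribute [local instance] EllLocal.instDecEqKA

local notation "Ω" => AlgebraicClosure ℚ

variable {W : WeierstrassCurve ℤ} {p : ℕ} [Fact p.Prime]

section

variable [(W.map (Int.castRingHom ℚ)).IsElliptic]

/-- **The Tate module modulo a power of `p` has a model** at supersingular reduction. -/
theorem exists_isModel_tate (hp2 : p ≠ 2) (hss : IsGoodSupersingular W p)
    (b : Module.Basis (Fin 2) ℤ_[p] (tateModule (W.map (Int.castRingHom ℚ)) p)) {B : Type}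
    [CommRing B] [Finite B] (c : ℤ_[p] →+* B) {n : ℕ} (hn : (p : B) ^ n = 0) :
    ∃ M, IsModel p (vecAct (mapRep c (Top.tateMat b))) M := by
  classical
  have hpn : p ^ n ≠ 0 := pow_ne_zero n (Fact.out : p.Prime).ne_zero
  let T := Submodule.torsionBy ℤ (PtQ (W.map (Int.castRingHom ℚ))) ((p ^ n : ℕ) : ℤ)
  have hfin : Finite T := EllTorsion.finite_torsionBy_baseChange _ Ω hpn
  have htor : ∀ P : T, p ^ n • (P : PtQ (W.map (Int.castRingHom ℚ))) = 0 := fun P => by
    rw [← natCast_zsmul]
    exact (Submodule.mem_torsionBy_iff _ _).1 P.2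
  have hmem : ∀ (σ : GQ) (P : T), σ • (P : PtQ (W.map (Int.castRingHom ℚ))) ∈ T := fun σ P => by
    rw [Submodule.mem_torsionBy_iff, natCast_zsmul, ← tateAct.smul_nsmul_point, htor]
    rfl
  let act : GQ →* AddMonoid.End T :=
    { toFun := fun σ => AddMonoidHom.mk' (fun P => ⟨_, hmem σ P⟩) fun P Q => Subtype.ext
        (smul_add σ (P : PtQ (W.map (Int.castRingHom ℚ))) Q)
      map_one' := AddMonoidHom.ext fun P => Subtype.ext (one_smul GQ _)
      map_mul' := fun σ τ => AddMonoidHom.ext fun P => Subtype.ext (mul_smul σ τ _) }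
  obtain ⟨M, hM⟩ := exists_isModel_supersingular hp2 hss act T.subtype.toAddMonoidHom
    Subtype.val_injective (fun _ _ => rfl) n
    (fun P => Subtype.ext ((map_nsmul T.subtype _ P).trans (htor P)))
  choose s hs using fun P : T => EllLocal.exists_apply_eq (W := W.map (Int.castRingHom ℚ)) (p := p)
    n (htor P)
  let Ψ : tateModule (W.map (Int.castRingHom ℚ)) p →+ (Fin 2 → B) :=
    AddMonoidHom.mk' (fun f i => c (b.repr f i)) fun f g => funext fun i => by
      simp [map_add]
  have hΨ : ∀ (f : tateModule (W.map (Int.castRingHom ℚ)) p) (P : T), f.1 n = P →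
      Ψ (s P) = Ψ f := fun f P h => by
    obtain ⟨g, hg⟩ := exists_eq_pow_smul_of_apply_eq_zero (s P - f) n (by
      show (s P).1 n - f.1 n = 0
      rw [hs, h, sub_self])
    rw [← sub_eq_zero, ← map_sub, ← hg]
    funext i
    show c (b.repr ((p : ℤ_[p]) ^ n • g) i) = 0
    rw [map_smul, Finsupp.smul_apply, smul_eq_mul, map_mul, map_pow, map_natCast, hn, zero_mul]
  let θ : T →+ (Fin 2 → B) := AddMonoidHom.mk' (fun P => Ψ (s P)) fun P Q => by
    rw [← map_add]
    exact hΨ _ _ (by
      show (s P).1 n + (s Q).1 n = _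
      rw [hs, hs]
      rfl)
  have hθ : ∀ σ P, θ (act σ P) = mapRep c (Top.tateMat b) σ *ᵥ θ P := fun σ P => by
    refine (hΨ (tateAct σ (s P)) _ (by
      show σ • (s P).1 n = _
      rw [hs]
      rfl)).trans (funext fun i => ?_)
    show c (b.repr (tateAct σ (s P)) i) = _
    rw [← LinearMap.toMatrix_mulVec_repr b b, ← Top.tateMat_eq, RingHom.map_mulVec]
    rfl
  -- functions on the scalars with values in the torsion
  let actX : GQ →* AddMonoid.End (B → T) :=
    { toFun := fun σ => AddMonoidHom.mk' (fun X a => act σ (X a)) fun X Y =>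
        funext fun a => map_add (act σ) _ _
      map_one' := AddMonoidHom.ext fun X => funext fun a =>
        show act 1 (X a) = X a by rw [map_one]; rfl
      map_mul' := fun σ τ => AddMonoidHom.ext fun X => funext fun a =>
        show act (σ * τ) (X a) = act σ (act τ (X a)) by rw [map_mul]; rfl }
  obtain ⟨M', hM'⟩ := Row32.exists_isModel_of_family (act := actX) (fun _ : B => ⟨M, hM⟩)
    (fun a => Pi.evalAddMonoidHom (fun _ : B => T) a) (fun _ _ _ => rfl) fun X Y h => funext h
  have := Fintype.ofFinite B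
  let q : (B → T) →+ (Fin 2 → B) := AddMonoidHom.mk' (fun X => ∑ a, a • θ (X a)) fun X Y => by
    rw [← Finset.sum_add_distrib]
    exact Finset.sum_congr rfl fun a _ => by rw [← smul_add, ← map_add]; rfl
  have hq : ∀ X, q X = ∑ a, a • θ (X a) := fun X => rfl
  refine Row32.exists_isModel_of_surjective hM' q (fun v => ?_) fun σ X => ?_
  · let e : Fin 2 → T := fun i => ⟨(b i).1 n, by
      rw [Submodule.mem_torsionBy_iff, natCast_zsmul]; exact tateModule_pow _ n⟩
    have he : ∀ i, θ (e i) = Pi.single i 1 := fun i => by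
      refine (hΨ (b i) _ rfl).trans (funext fun j => ?_)
      show c (b.repr (b i) j) = _
      rw [Module.Basis.repr_self, Finsupp.single_apply, Pi.single_apply]
      split_ifs <;> simp_all
    refine ⟨∑ i, Pi.single (v i) (e i), ?_⟩
    rw [map_sum]
    conv_rhs => rw [pi_eq_sum_univ' v]
    refine Finset.sum_congr rfl fun i _ => ?_
    rw [hq, Finset.sum_eq_single (v i) (fun a _ ha => by
        rw [Pi.single_eq_of_ne ha, map_zero, smul_zero])
      (fun h => absurd (Finset.mem_univ _) h), Pi.single_eq_same, he]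
  · rw [hq, hq, vecAct_apply, Matrix.mulVec_sum]
    exact Finset.sum_congr rfl fun a _ => by
      rw [Matrix.mulVec_smul, ← hθ]
      rfl

end

variable {C : Top.Coeff p}

/-- **The lift given by a supersingular curve satisfies the flat condition.** -/
theorem mem'_flatClosed_curveLift {R : Top.ResidualData W C} {N : MRep C.O} (hN : R.IsCurveLift N)
    (hspan : Submodule.span (ResidueField C.O) (Set.range R.D.rbar) = ⊤) (hp2 : p ≠ 2)
    (hgood : W.IsGoodPrimeFor p) (hap : (p : ℤ) ∣ W.apOfModel p) {P : ValuationSubring Ω}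
    (hP : P.LiesOverPrime p) :
    (flatClosed C.O P).Mem' (coordsOf fun σ : P.decompositionSubgroup ℚ => N σ) := by
  classical
  have hΔ : W.Δ ≠ 0 := fun h0 => hgood (h0 ▸ dvd_zero _)
  have := BigImage.isElliptic_of_Δ_ne_zero hΔ
  obtain ⟨b, hb⟩ := R.exists_tateMat_residue
  have hl : IsLocalHom (algebraMap C.O C.O) := ⟨fun a ha => by simpa using ha⟩
  have hs : Function.Surjective (residue C.O ∘ algebraMap C.O C.O) := fun y => by
    obtain ⟨x, rfl⟩ := residue_surjective y
    exact ⟨x, rfl⟩
  have hres : ∀ a : C.O, toResidue hl hs a = residue C.O a := fun a =>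
    (toResidue hl hs).commutes a
  obtain ⟨g, N', hg, hN', hred⟩ := R.D.exists_normal (hl := hl) (hs := hs)
    (mapRep C.ι₀ (Top.tateMat b)) ⟨1, fun σ => by
      rw [Units.val_one, one_mul, mul_one, ← hb σ]
      exact Matrix.ext fun i j => hres _⟩
  have hN'σ : ∀ σ, N' σ = g.1 * mapRep C.ι₀ (Top.tateMat b) σ * g⁻¹.1 := fun σ => by
    rw [hg σ, mul_assoc, Units.mul_inv, mul_one]
  have hredN : R.D.Reduces hl hs N := MonoidHom.ext fun σ => by
    rw [← hN.red σ]
    exact Matrix.ext fun i j => hres _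
  have hc : IsCont (mapRep C.ι₀ (Top.tateMat b)) :=
    (isCont_matrixRep (tateRep (W.map (Int.castRingHom ℚ)) p) b).map C.ι₀ C.isLocalHom
  have htr : ∀ σ, (N σ).trace = (N' σ).trace := fun σ => by
    rw [hN'σ, Matrix.trace_units_conj]
    refine trace_eq_of_frobenius hN.cont hc (insert p W.Δ.natAbs.primeFactors)
      (fun ℓ hℓ hℓS A hA τ hτ => ?_) σ
    rw [Finset.mem_insert, Nat.mem_primeFactors, not_or] at hℓS
    have hgℓ : W.IsGoodPrimeFor ℓ := fun hd =>
      hℓS.2 ⟨hℓ, Int.natCast_dvd.1 hd, Int.natAbs_ne_zero.2 hΔ⟩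
    rw [hN.trace_frob ℓ hℓ hℓS.1 hgℓ A hA τ hτ, mapRep_apply, ← map_intCast C.ι₀,
      ← Top.trace_tateMat_frob b hℓ hℓS.1 hgℓ hA hτ]
    exact AddMonoidHom.map_trace C.ι₀.toAddMonoidHom _
  obtain rfl : N = N' := eq_of_trace_eq hspan hN.normal hN' hredN hred htr
  intro B _ _ _ hB q hq hqs
  have := finite_of_isArtinianTestAlgebra hB
  obtain ⟨n, hn⟩ := exists_natCast_pow_eq_zero hB C.p_mem
  obtain ⟨M, hM⟩ := exists_isModel_conj (Units.map (q : C.O →+* B).mapMatrix.toMonoidHom g)
    (ρ' := mapRep (q : C.O →+* B) N) (fun σ => by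
      rw [mapRep_apply, hN'σ σ]
      show (q : C.O →+* B).mapMatrix _ = _
      rw [map_mul, map_mul]
      rfl)
    (exists_isModel_tate hp2 (isGoodSupersingular_of_dvd hgood hap) b
      ((q : C.O →+* B).comp C.ι₀) hn)
  rw [mem_flatClosed]
  exact hasModelAt_of_isModel ⟨Fact.out, hP⟩ hM

end Fermat.Agent.General.Flat

end
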