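import Fermat.Agent.General.Flat.TopPlaceFlat
import Fermat.Agent.S19Model.Proof
import Fermat.Agent.HeckeJ0.TorsionModel

/-!
# Finite flat models of the torsion of `J₀(N)`

Finite flat models of the `p`-power torsion of `J₀(N)` for `p ∤ N`, and the flat condition at the
top levels without hypotheses on the Jacobians.
-/

set_option autoImplicit false

noncomputable section

namespace Fermat.Agent.General.Flat

open ModularCurve AlgebraicCurve Fermat.Agent.Engine IsLocalRing

/-- **The torsion of `J₀(N)` has models at `p ∤ N`.** -/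
theorem hasTorsionModels {N p : ℕ} [NeZero N] [Fact p.Prime] (hN : ¬ p ∣ N) :
    HasTorsionModels N p := by
  intro k
  have : NeZero (p ^ k) := ⟨pow_ne_zero k (Fact.out : p.Prime).ne_zero⟩
  have : Finite (Pic0.torsion (AlgebraicClosure ℚ) (modularFunctionFieldBar N) (p ^ k)) :=
    Finite.of_equiv _ ((HeckeJ0.torsionHeckeModel N p).e k).symm.toEquiv
  let g : Pic0.torsion (AlgebraicClosure ℚ) (modularFunctionFieldBar N) (p ^ k) →+
      Submodule.torsionBy ℤ (JZero N) ((p : ℤ) ^ k) :=
    AddMonoidHom.mk' (fun x => ⟨(x : JZero N), by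
      rw [Submodule.mem_torsionBy_iff, ← Nat.cast_pow]
      exact Pic0.mem_torsion.mp x.2⟩) fun _ _ => Subtype.ext rfl
  exact Row32.exists_isModel_of_family
    (fun _ : Unit => S19Model.exists_isModel_jZero_torsion S19Model.addClosed N p hN k) (fun _ => g)
    (fun _ σ x => Subtype.ext (JZero.coe_torsionGaloisRep_apply (N := N) σ x))
    fun x y h => Subtype.ext (congrArg (fun z : Submodule.torsionBy ℤ (JZero N) ((p : ℤ) ^ k) =>
      (z : JZero N)) (h ()))

variable {O : Type} [CommRing O] [IsLocalRing O] [Finite (ResidueField O)] {p : ℕ}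
  [Fact p.Prime] {ι₀ : ℤ_[p] →+* O} {N₀ : ℕ} {lam : ℕ → O} {L₀ : LevelData O}

/-- **The flat condition at the top levels, unconditionally.** -/
theorem topPlaceHyp_flat' (H : BaseSetting p ι₀ N₀ lam L₀) (hN₀ : ¬ p ∣ N₀)
    (hA : L₀.place.LiesOverPrime p) (hcl : L₀.atPlace = flatClosed O L₀.place) :
    TopPlaceHyp p ι₀ N₀ lam L₀ :=
  topPlaceHyp_flat H hN₀ hA hcl fun _ _ hN => hasTorsionModels hN

end Fermat.Agent.General.Flat

end
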