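import Fermat.Agent.General.Flat.Lattice
import Fermat.Agent.RowS56.Model.Bound

/-!
# Fontaine's bound at a place

Fontaine's bound for a model at a place killed by `p`.
-/

set_option autoImplicit false

noncomputable section

namespace Fermat.Agent.General.Flat

open Fermat.Agent.FlatJ0 Fermat.Agent.GalCoh.Descent Module ExtCitation RowS56

local notation "Ω" => AlgebraicClosure ℚ
local notation "G_ℚ" => (AlgebraicClosure ℚ) ≃ₐ[ℚ] (AlgebraicClosure ℚ)

variable {A : ValuationSubring Ω} {p : ℕ} [Fact p.Prime] {W : Type} [AddCommGroup W]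
  [Module (ZMod p) W] [Finite W] {act : G_ℚ →* AddMonoid.End W}
  {M : Subalgebra ↥(localRing A) (W → Ω)}

/-- Trivial action on a finite level gives a kernel that is relatively of finite level. -/
theorem modelKer_isOpenAt {F : IntermediateField ℚ Ω} [FiniteDimensional ℚ F]
    (hF : ∀ σ ∈ F.fixingSubgroup, act σ = 1) : IsOpenInInertia A (modelKer A p act) := by
  have : FiniteDimensional ℚ (IntermediateField.adjoin ℚ ({zetaP p} : Set Ω)) :=
    IntermediateField.adjoin.finiteDimensional
      ((AlgebraicClosure.isAlgebraic ℚ).isAlgebraic (zetaP p)).isIntegral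
  refine ⟨F ⊔ IntermediateField.adjoin ℚ ({zetaP p} : Set Ω),
    IntermediateField.finiteDimensional_sup _ _, fun σ hσ hσF => mem_modelKer.mpr
      ⟨⟨hσ, hF σ (IntermediateField.fixingSubgroup_antitone le_sup_left hσF)⟩, ?_⟩⟩
  exact cycloChar_eq_one ((IntermediateField.mem_fixingSubgroup_iff _ _).mp
    (IntermediateField.fixingSubgroup_antitone le_sup_right hσF) _
    (IntermediateField.subset_adjoin ℚ _ rfl))

variable (h : IsOver A p)
  (hM : IsModelAt A (fun (σ : A.decompositionSubgroup ℚ) x => act σ x) M)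
  {F : IntermediateField ℚ Ω} [FiniteDimensional ℚ F] (hF : ∀ σ ∈ F.fixingSubgroup, act σ = 1)
include h hM hF

/-- **Fontaine's bound.** -/
theorem hasBoundAt {γ : ℚ} (hγ : (p : ℚ) / (p - 1) < γ) : HasBound A p (modelKer A p act) γ := by
  classical
  intro φ hφ σ hσ hfix
  obtain ⟨ι, _, b, hb⟩ := hM.exists_isBasisAt
  obtain ⟨u⟩ := exists_unif h (modelKer_le (A := A) (p := p) (act := act)) modelKer_normal
    (modelKer_isOpenAt hF)
  have : ((modelKer A p act).subgroupOf (A.inertiaSubgroupIn ℚ)).FiniteIndex :=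
    ⟨u.index_eq ▸ u.e_pos.ne'⟩
  have hgap := rootGap_pos (p := p)
  have hγg : rootGap p < γ - 1 := by rw [← rootGap_add_one] at hγ; linarith
  have hγ1 : 1 < γ := by linarith
  have hσd := MultRed.inertia_mem_decomposition hσ
  have hequ : ∀ f ∈ M, ∀ τ ∈ A.inertiaSubgroupIn ℚ, ∀ x, f (act τ x) = τ (f x) :=
    fun f hf τ hτ x => hM.equiv f hf ⟨τ, MultRed.inertia_mem_decomposition hτ⟩ x
  -- the values of the model
  have hval : ∀ f ∈ M, ∀ x, f x ∈ fixRing A (modelKer A p act) := fun f hf x =>
    ⟨value_mem h hb hf x, fun τ hτ => by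
      rw [← hequ f hf τ (modelKer_le hτ), (mem_modelKer.mp hτ).1.2]; rfl⟩
  have hcoef : ∀ f ∈ M, ∀ i, b.repr f i ∈ fixRing A (A.inertiaSubgroupIn ℚ) := fun f hf i =>
    ⟨(hb.repr_mem f hf i).1, fun τ hτ => (hb.repr_mem f hf i).2 τ (MultRed.inertia_mem_decomposition hτ)⟩
  have hmono : fixRing A (A.inertiaSubgroupIn ℚ) ≤ fixRing A (modelKer A p act) :=
    fun z hz => ⟨hz.1, fun τ hτ => hz.2 τ (modelKer_le hτ)⟩
  let Φ : W → Dual Ω (W → Ω) := fun x => b.constr Ω fun i => φ (b i x)
  have hΦb : ∀ x i, Φ x (b i) = φ (b i x) := fun x i => Basis.constr_basis _ _ _ _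
  have hΦ : ∀ x, ∀ f ∈ M, Near A p γ (Φ x f - φ (f x)) := fun x f hf => by
    have e1 : f x = ∑ i, b.repr f i * b i x := by
      conv_lhs => rw [← b.sum_repr f]
      simp [Finset.sum_apply]
    have e2 : Φ x f = ∑ i, b.repr f i * φ (b i x) := by
      conv_lhs => rw [← b.sum_repr f, map_sum]
      simp [hΦb]
    refine h.near_sub_comm ?_
    rw [e1, e2]
    refine h.near_trans (IsHomMod.sum h hφ Finset.univ (fun i => b.repr f i * b i x)
      fun i _ => mul_mem (hmono (hcoef f hf i)) (hval _ (hb.mem i) x)) ?_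
    rw [← Finset.sum_sub_distrib]
    refine h.near_sum _ _ fun i _ => h.near_trans
      (hφ.mul _ (hmono (hcoef f hf i)) _ (hval _ (hb.mem i) x)) ?_
    rw [← sub_mul]
    exact h.near_mul_right (hφ.fixed _ (hcoef f hf i)) (hφ.mem _ (hval _ (hb.mem i) x))
  let T : W → Dual (ZMod p) W → Ω := fun x η => Φ x (chi η)
  have hT : ∀ x, ofT (T x) = Φ x := fun x => dual_ext (p := p) fun η => by rw [ofT_chi]
  have hT0 : ∀ x, IntNear A b 0 (T x) := fun x i => by
    rw [hT, hΦb]; exact h.near_of_mem (hφ.mem _ (hval _ (hb.mem i) x))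
  -- additivity in the point
  have hTadd : ∀ x x', IntNear A b γ (T (x + x') - T x * T x') := fun x x' l => by
    obtain ⟨n, a, c, ha, hc, hsum⟩ := hM.comul _ (hb.mem l)
    rw [ofT_sub, LinearMap.sub_apply, ofT_mul, hT, hT, hT, hΦb, convol_sum a c hsum, hsum]
    refine h.near_trans (IsHomMod.sum h hφ Finset.univ (fun i => a i x * c i x')
      fun i _ => mul_mem (hval _ (ha i) x) (hval _ (hc i) x')) ?_
    rw [← Finset.sum_sub_distrib]
    refine h.near_sum _ _ fun i _ => ?_
    refine h.near_trans (hφ.mul _ (hval _ (ha i) x) _ (hval _ (hc i) x')) ?_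
    rw [show φ (a i x) * φ (c i x') - Φ x (a i) * Φ x' (c i) =
      (φ (a i x) - Φ x (a i)) * φ (c i x') + Φ x (a i) * (φ (c i x') - Φ x' (c i)) by ring]
    refine h.near_add (h.near_mul_right (h.near_sub_comm (hΦ x _ (ha i)))
      (hφ.mem _ (hval _ (hc i) x'))) (h.near_mul_left ?_ (h.near_sub_comm (hΦ x' _ (hc i))))
    exact h.mem_of_near (hT x ▸ intNearAt_apply h hb (hT0 x) (ha i)) le_rfl
  have hTzero : IntNear A b γ (T 0 - 1) := fun l => by
    rw [← pointT_zero, ofT_sub, LinearMap.sub_apply, hT, hΦb, ofT_pointT]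
    exact hφ.fixed _ ⟨value_mem h hb (hb.mem l) 0, fun τ _ => by
      exact (hequ _ (hb.mem l) τ ‹_› 0).symm.trans (by rw [map_zero])⟩
  have hTpow : ∀ x (n : ℕ), IntNear A b γ (T (n • x) - T x ^ n) := by
    intro x n
    induction n with
    | zero => simpa using hTzero
    | succ n ih =>
      have h1 := (hTadd (n • x) x).add h
        (intNearAt_mono (intNearAt_mul h hM hb ih (hT0 x)) (by linarith))
      rw [show T (n • x + x) - T (n • x) * T x + (T (n • x) - T x ^ n) * T x =
        T (n • x + x) - T x ^ (n + 1) by ring, ← succ_nsmul] at h1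
      exact h1
  have hTp : ∀ x, IntNear A b γ (T x ^ p - 1) := fun x => by
    have := hTzero.sub h (hTpow x p)
    rw [show p • x = 0 by rw [← Nat.cast_smul_eq_nsmul (ZMod p), ZMod.natCast_self, zero_smul],
      show T 0 - 1 - (T 0 - T x ^ p) = T x ^ p - 1 by ring] at this
    exact this
  -- multiplicativity in the character
  have hTmul : ∀ x η η', Near A p γ (T x (η + η') - T x η * T x η') := fun x η η' => by
    have e : ∀ η : Dual (ZMod p) W, T x η = ∑ i, b.repr (chi η) i * Φ x (b i) := fun η => by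
      show Φ x (chi η) = _
      conv_lhs => rw [← b.sum_repr (chi η), map_sum]
      simp
    rw [e η, e η', Finset.sum_mul_sum]
    have e2 : T x (η + η') =
        ∑ i, ∑ j, b.repr (chi η) i * b.repr (chi η') j * Φ x (b i * b j) := by
      show Φ x (chi (η + η')) = _
      rw [chi_add]
      conv_lhs => rw [← b.sum_repr (chi η), ← b.sum_repr (chi η'), Finset.sum_mul_sum]
      simp [map_sum]
      exact Finset.sum_congr rfl fun i _ => Finset.sum_congr rfl fun j _ => by ring
    rw [e2, ← Finset.sum_sub_distrib]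
    refine h.near_sum _ _ fun i _ => ?_
    rw [← Finset.sum_sub_distrib]
    refine h.near_sum _ _ fun j _ => ?_
    rw [show b.repr (chi η) i * b.repr (chi η') j * Φ x (b i * b j) -
        b.repr (chi η) i * Φ x (b i) * (b.repr (chi η') j * Φ x (b j)) =
      b.repr (chi η) i * b.repr (chi η') j * (Φ x (b i * b j) - Φ x (b i) * Φ x (b j)) by ring,
      hΦb, hΦb]
    exact h.near_mul_left (mul_mem (repr_chi_mem h hM hb η i) (repr_chi_mem h hM hb η' j))
      (h.near_trans (hΦ x _ (M.mul_mem (hb.mem i) (hb.mem j)))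
        (hφ.mul _ (hval _ (hb.mem i) x) _ (hval _ (hb.mem j) x)))
  -- the point attached to `x`
  have hpoint : ∀ x, ∃ y, ∀ i, Near A p (γ - 1) (φ (b i x) - b i y) := by
    intro x
    have hroot : ∀ η, ∃ j : ZMod p, Near A p (γ - 1) (T x η - mu p j) := fun η => by
      obtain ⟨j, hj⟩ := exists_near_root h one_ne_zero h.ord_one hγ (a := T x η)
        (by rw [one_pow]; simpa using intNearAt_value h hM hb (hTp x) η)
      exact ⟨j, by rwa [mul_one] at hj⟩
    choose j hj using hroot
    have hjA : ∀ η, T x η ∈ A := fun η =>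
      h.mem_of_near (intNearAt_value h hM hb (hT0 x) η) le_rfl
    have hjadd : ∀ η η', j (η + η') = j η + j η' := fun η η' => by
      refine eq_of_near_mu h hγg ?_
      rw [mu_add]
      refine h.near_trans (h.near_sub_comm (hj _)) (h.near_trans
        ((hTmul x η η').mono (by linarith)) ?_)
      rw [show T x η * T x η' - mu p (j η) * mu p (j η') =
        (T x η - mu p (j η)) * T x η' + mu p (j η) * (T x η' - mu p (j η')) by ring]
      exact h.near_add (h.near_mul_right (hj η) (hjA η')) (h.near_mul_left (mu_mem _) (hj η'))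
    have : Module.Finite (ZMod p) W := Module.Finite.of_finite
    let J : Dual (ZMod p) (Dual (ZMod p) W) :=
      AddMonoidHom.toZModLinearMap p (AddMonoidHom.mk' j hjadd)
    obtain ⟨y, hy⟩ := (Module.evalEquiv (ZMod p) W).surjective J
    have hyη : ∀ η : Dual (ZMod p) W, η y = j η := fun η => by
      have := LinearMap.congr_fun hy η
      simpa [J] using this
    refine ⟨y, fun i => ?_⟩
    have hinv : pointT (p := p) (-y) * pointT y = 1 := by
      rw [← pointT_add, neg_add_cancel, pointT_zero]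
    have hpt : ∀ z : W, pointT (p := p) z ^ p = 1 := fun z => funext fun η => by
      simp [pointT, chi, mu_pow]
    have hroot' : IntNear A b (γ - 1) (T x * pointT (-y) - 1) := by
      refine intNearAt_of_pow h hM hb hγ ?_ fun η => ?_
      · rw [mul_pow, hpt, mul_one]; exact hTp x
      · show Near A p (γ - 1) (T x η * mu p (η (-y)) - 1)
        rw [map_neg, hyη, show T x η * mu p (-(j η)) - 1 = (T x η - mu p (j η)) * mu p (-(j η)) by
          rw [sub_mul, ← mu_add, add_neg_cancel, mu_zero]]
        exact h.near_mul_right (hj η) (mu_mem _)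
    have h2 := (intNearAt_mul h hM hb hroot' (intNearAt_pointT h hb (p := p) y)) i
    rw [sub_mul, one_mul, mul_assoc, hinv, mul_one, ofT_sub, LinearMap.sub_apply, hT, hΦb,
      ofT_pointT, add_zero] at h2
    exact h2
  choose Y hY using hpoint
  have hYinj : Function.Injective Y := fun x x' e => by
    refine eq_of_forall_near h hM hb (p := p) hγg fun i => ?_
    refine IsHomMod.near_of_near_apply h hγ1 hφ (sub_mem (hval _ (hb.mem i) x)
      (hval _ (hb.mem i) x')) (by linarith) ?_
    have h2 := h.near_add ((IsHomMod.sub h hφ (hval _ (hb.mem i) x) (hval _ (hb.mem i) x')).mono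
      (by linarith : γ - 1 ≤ γ)) (h.near_trans (hY x i) (e ▸ h.near_sub_comm (hY x' i)))
    rwa [sub_add_cancel] at h2
  refine mem_modelKer.mpr ⟨⟨hσ, DFunLike.ext _ _ fun y => ?_⟩, ?_⟩
  · obtain ⟨x, rfl⟩ := (Finite.injective_iff_surjective.mp hYinj) y
    show act σ (Y x) = Y x
    refine eq_of_forall_near h hM hb (p := p) hγg fun i => ?_
    rw [hequ _ (hb.mem i) σ hσ]
    refine h.near_trans (y := σ (φ (b i x))) ?_ (h.near_trans
      ((hfix _ (hval _ (hb.mem i) x)).mono (by linarith)) (hY x i))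
    rw [← map_sub, h.near_apply hσd]
    exact h.near_sub_comm (hY x i)
  · have hz : mu p (1 : ZMod p) ∈ fixRing A (modelKer A p act) :=
      ⟨mu_mem _, fun τ hτ => apply_mu_eq (mem_modelKer.mp hτ).2 _⟩
    obtain ⟨j, hj⟩ := exists_near_root h one_ne_zero h.ord_one hγ (a := φ (mu p (1 : ZMod p)))
      (by
        have h2 := h.near_trans (h.near_sub_comm (IsHomMod.pow h hφ hz p))
          (show Near A p γ (φ (mu p (1 : ZMod p) ^ p) - 1) by rw [mu_pow]; exact hφ.one)
        rwa [one_pow])
    rw [mul_one] at hj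
    have hj0 : j ≠ 0 := fun e => by
      rw [e, mu_zero] at hj
      have h2 := h.near_trans hj (h.near_sub_comm (hφ.one.mono (by linarith : γ - 1 ≤ γ)))
      have h3 := h.near_add ((IsHomMod.sub h hφ hz (one_mem _)).mono
        (by linarith : γ - 1 ≤ γ)) h2
      rw [sub_add_cancel] at h3
      have h4 := IsHomMod.near_of_near_apply h hγ1 hφ (sub_mem hz (one_mem _)) (by linarith) h3
      rw [← mu_zero (p := p)] at h4
      exact one_ne_zero (eq_of_near_mu h hγg h4)
    refine Units.ext (mul_right_cancel₀ hj0 ?_)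
    rw [Units.val_one, one_mul]
    refine eq_of_near_mu h hγg ?_
    rw [← apply_mu]
    refine h.near_trans (y := σ (φ (mu p (1 : ZMod p)))) ?_
      (h.near_trans ((hfix _ hz).mono (by linarith)) hj)
    rw [← map_sub, h.near_apply hσd]
    exact h.near_sub_comm hj

end Fermat.Agent.General.Flat

end
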