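import Fermat.Agent.MultRed.Basic

/-!
# Addition in the chart at infinity

For points `P`, `R` reducing to the origin, with `z = x / y` and `w = 1 / y`, the pair `(z, w)` of
`P + R` is an explicit rational expression in those of `P` and `R`, whose denominators are units.
The expressions are written over any commutative ring, the inverses being arguments.
-/

set_option autoImplicit false

namespace Fermat.Agent.General.Flat

open WeierstrassCurve Fermat.Agent.MultRed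

/-- The five coefficients. -/
structure ChartCoeffs (R : Type*) where
  /-- `a₁` -/
  a₁ : R
  /-- `a₂` -/
  a₂ : R
  /-- `a₃` -/
  a₃ : R
  /-- `a₄` -/
  a₄ : R
  /-- `a₆` -/
  a₆ : R

section Expressions

variable {R : Type*} [CommRing R] (c : ChartCoeffs R)

/-- The denominator of the slope of the line. -/
def chartDen (z₁ w₁ w₂ : R) : R :=
  1 + c.a₁ * z₁ + c.a₃ * (w₁ + w₂) - c.a₂ * z₁ ^ 2 - c.a₄ * z₁ * (w₁ + w₂) -
    c.a₆ * (w₁ ^ 2 + w₁ * w₂ + w₂ ^ 2)

/-- The numerator of the slope of the line. -/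
def chartNum (z₁ z₂ w₂ : R) : R :=
  z₁ ^ 2 + z₁ * z₂ + z₂ ^ 2 + c.a₂ * (z₁ + z₂) * w₂ + c.a₄ * w₂ ^ 2 - c.a₁ * w₂

/-- The leading coefficient of the cubic on the line of slope `l`. -/
def chartLead (l : R) : R := 1 + c.a₂ * l + c.a₄ * l ^ 2 + c.a₆ * l ^ 3

/-- The negated second coefficient of the cubic on the line `w = l z + m`. -/
def chartSum (l m : R) : R :=
  c.a₃ * l ^ 2 - 3 * c.a₆ * l ^ 2 * m - 2 * c.a₄ * l * m + c.a₁ * l - c.a₂ * m

/-- The denominator of negation. -/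
def chartNeg (z w : R) : R := 1 + c.a₁ * z + c.a₃ * w

end Expressions

variable {L : Type*} [Field L] {Γ₀ : Type*} [LinearOrderedCommGroupWithZero Γ₀]
  {v : Valuation L Γ₀} {W : WeierstrassCurve L}

/-- The coefficients of a curve. -/
def coeffsOf (W : WeierstrassCurve L) : ChartCoeffs L := ⟨W.a₁, W.a₂, W.a₃, W.a₄, W.a₆⟩

/-- The parameter `1 / y`, zero at the origin. -/
def wPar (W : WeierstrassCurve L) : W.toAffine.Point → L
  | .zero => 0
  | .some _ y _ => y⁻¹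

variable (hW : IntCoeffs v W)
include hW

/-- The chart at a point reducing to the origin. -/
theorem chart_facts {P : W.toAffine.Point} (hP : InE1 v W P) :
    v (zPar W P) < 1 ∧ v (wPar W P) < 1 ∧
      wPar W P + W.a₁ * zPar W P * wPar W P + W.a₃ * wPar W P ^ 2 =
        zPar W P ^ 3 + W.a₂ * zPar W P ^ 2 * wPar W P + W.a₄ * zPar W P * wPar W P ^ 2 +
          W.a₆ * wPar W P ^ 3 := by
  rcases P with _ | ⟨x, y, h⟩
  · simp [zPar, wPar]
  obtain ⟨-, hy, hz, -, hw⟩ := e1_facts hW h.1 hP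
  refine ⟨hz, ?_, ?_⟩
  · show v y⁻¹ < 1
    rw [hw]
    exact pow_lt_one₀ zero_le hz (by norm_num)
  · have he := (Affine.equation_iff _ _).1 h.1
    simp only [zPar, wPar]
    field_simp
    linear_combination he

/-- Negation in the chart. -/
theorem chart_neg {P : W.toAffine.Point} (hP : InE1 v W P) :
    v (chartNeg (coeffsOf W) (zPar W P) (wPar W P)) = 1 ∧
      zPar W (-P) = -zPar W P / chartNeg (coeffsOf W) (zPar W P) (wPar W P) ∧
      wPar W (-P) = -wPar W P / chartNeg (coeffsOf W) (zPar W P) (wPar W P) := by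
  obtain ⟨hz, hw, -⟩ := chart_facts hW hP
  have hu : v (chartNeg (coeffsOf W) (zPar W P) (wPar W P)) = 1 := by
    rw [chartNeg, add_assoc]
    exact v.map_one_add_of_lt (v.map_add_lt (vmul_lt_right hW.a₁ hz) (vmul_lt_right hW.a₃ hw))
  refine ⟨hu, ?_⟩
  rcases P with _ | ⟨x, y, h⟩
  · simp [zPar, wPar, Affine.Point.neg_def, Affine.Point.neg]
  obtain ⟨-, hy, -, -, -⟩ := e1_facts hW h.1 hP
  have hu0 : chartNeg (coeffsOf W) (x / y) y⁻¹ ≠ 0 := v.ne_zero_iff.1 (by
    simp only [zPar, wPar] at hu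
    rw [hu]; exact one_ne_zero)
  rw [Affine.Point.neg_some]
  have hneg : W.toAffine.negY x y = -y * chartNeg (coeffsOf W) (x / y) y⁻¹ := by
    simp only [chartNeg, coeffsOf, Affine.negY]
    field_simp
    ring
  simp only [zPar, wPar, hneg]
  exact ⟨by field_simp, by field_simp⟩

variable [DecidableEq L]

omit hW [DecidableEq L] in
/-- The third point of a line `w = l z`, through the origin. -/
theorem sum_through_origin {z w l : L} (hz0 : z ≠ 0) (hl : l * z = w)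
    (he : w + W.a₁ * z * w + W.a₃ * w ^ 2 =
      z ^ 3 + W.a₂ * z ^ 2 * w + W.a₄ * z * w ^ 2 + W.a₆ * w ^ 3)
    (hu : v (chartNeg (coeffsOf W) z w) = 1) (hlead : v (chartLead (coeffsOf W) l) = 1) :
    chartSum (coeffsOf W) l 0 / chartLead (coeffsOf W) l - z =
        -z / chartNeg (coeffsOf W) z w ∧
      l * (-z / chartNeg (coeffsOf W) z w) = -w / chartNeg (coeffsOf W) z w := by
  have hu0 : chartNeg (coeffsOf W) z w ≠ 0 := v.ne_zero_iff.1 (by rw [hu]; exact one_ne_zero)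
  have hl0 : chartLead (coeffsOf W) l ≠ 0 :=
    v.ne_zero_iff.1 (by rw [hlead]; exact one_ne_zero)
  subst hl
  refine ⟨?_, by field_simp⟩
  rw [div_sub' hl0, div_eq_div_iff hl0 hu0]
  simp only [chartNeg, chartLead, chartSum, coeffsOf] at *
  refine mul_left_cancel₀ (pow_ne_zero 2 hz0) ?_
  linear_combination (W.a₁ * z + W.a₃ * (l * z)) * he

/-- **Addition in the chart at infinity.** -/
theorem chart_add {P R : W.toAffine.Point} (h2 : v (2 : L) = 1) (hP : InE1 v W P)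
    (hR : InE1 v W R) :
    v (chartDen (coeffsOf W) (zPar W P) (wPar W P) (wPar W R)) = 1 ∧
    ∀ l m z₃ w₃ : L,
      l = chartNum (coeffsOf W) (zPar W P) (zPar W R) (wPar W R) /
        chartDen (coeffsOf W) (zPar W P) (wPar W P) (wPar W R) →
      m = wPar W P - l * zPar W P →
      z₃ = chartSum (coeffsOf W) l m / chartLead (coeffsOf W) l - zPar W P - zPar W R →
      w₃ = l * z₃ + m →
      v (chartLead (coeffsOf W) l) = 1 ∧ v (chartNeg (coeffsOf W) z₃ w₃) = 1 ∧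
        zPar W (P + R) = -z₃ / chartNeg (coeffsOf W) z₃ w₃ ∧
        wPar W (P + R) = -w₃ / chartNeg (coeffsOf W) z₃ w₃ := by
  obtain ⟨hzP, hwP, heP⟩ := chart_facts hW hP
  obtain ⟨hzR, hwR, heR⟩ := chart_facts hW hR
  obtain ⟨hu₁, -, hwn⟩ := chart_neg hW hP
  obtain ⟨hu₂, -, -⟩ := chart_neg hW hR
  have hw12 : v (wPar W P + wPar W R) < 1 := v.map_add_lt hwP hwR
  have hsq : ∀ {a : L}, v a < 1 → v (a ^ 2) < 1 := fun ha => by
    rw [map_pow]; exact pow_lt_one₀ zero_le ha two_ne_zero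
  have hD : v (chartDen (coeffsOf W) (zPar W P) (wPar W P) (wPar W R)) = 1 := by
    simp only [chartDen, coeffsOf]
    rw [show ∀ a b e f g : L, 1 + a + b - e - f - g = 1 + (a + b - e - f - g) from
      fun _ _ _ _ _ => by ring]
    refine v.map_one_add_of_lt (v.map_sub_lt (v.map_sub_lt (v.map_sub_lt (v.map_add_lt
      (vmul_lt_right hW.a₁ hzP) (vmul_lt_right hW.a₃ hw12)) (vmul_lt_right hW.a₂ (hsq hzP)))
      (vmul_lt_right (vmul_le_left hW.a₄ hzP.le) hw12)) (vmul_lt_right hW.a₆ ?_))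
    exact v.map_add_lt (v.map_add_lt (hsq hwP) (vmul_lt_left hwP hwR.le)) (hsq hwR)
  refine ⟨hD, ?_⟩
  intro l m z₃ w₃ hl hm hz₃ hw₃
  have hD0 : chartDen (coeffsOf W) (zPar W P) (wPar W P) (wPar W R) ≠ 0 :=
    v.ne_zero_iff.1 (by rw [hD]; exact one_ne_zero)
  have hN : v (chartNum (coeffsOf W) (zPar W P) (zPar W R) (wPar W R)) < 1 := by
    simp only [chartNum, coeffsOf]
    exact v.map_sub_lt (v.map_add_lt (v.map_add_lt (v.map_add_lt (v.map_add_lt (hsq hzP)
      (vmul_lt_left hzP hzR.le)) (hsq hzR))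
      (vmul_lt_right (vmul_le_left hW.a₂ (v.map_add_lt hzP hzR).le) hwR))
      (vmul_lt_right hW.a₄ (hsq hwR))) (vmul_lt_right hW.a₁ hwR)
  have hvl : v l < 1 := by rw [hl, map_div₀, hD, div_one]; exact hN
  have hvm : v m < 1 := by rw [hm]; exact v.map_sub_lt hwP (vmul_lt_left hvl hzP.le)
  have hU : v (chartLead (coeffsOf W) l) = 1 := by
    simp only [chartLead, coeffsOf]
    rw [add_assoc, add_assoc]
    exact v.map_one_add_of_lt (v.map_add_lt (vmul_lt_right hW.a₂ hvl) (v.map_add_lt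
      (vmul_lt_right hW.a₄ (hsq hvl))
      (vmul_lt_right hW.a₆ (by rw [map_pow]; exact pow_lt_one₀ zero_le hvl (by norm_num)))))
  have hvV : v (chartSum (coeffsOf W) l m) < 1 := by
    simp only [chartSum, coeffsOf]
    exact v.map_sub_lt (v.map_add_lt (v.map_sub_lt (v.map_sub_lt
      (vmul_lt_right hW.a₃ (hsq hvl))
      (vmul_lt_right (vmul_le_left (vmul_le_left (vofNat_le v 3) hW.a₆) (hsq hvl).le) hvm))
      (vmul_lt_right (vmul_le_left (vmul_le_left (vofNat_le v 2) hW.a₄) hvl.le) hvm))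
      (vmul_lt_right hW.a₁ hvl)) (vmul_lt_right hW.a₂ hvm)
  have hvz₃ : v z₃ < 1 := by
    rw [hz₃]
    exact v.map_sub_lt (v.map_sub_lt (by rw [map_div₀, hU, div_one]; exact hvV) hzP) hzR
  have hvw₃ : v w₃ < 1 := by
    rw [hw₃]; exact v.map_add_lt (vmul_lt_left hvl hvz₃.le) hvm
  refine ⟨hU, by
    rw [chartNeg, add_assoc]
    exact v.map_one_add_of_lt (v.map_add_lt (vmul_lt_right hW.a₁ hvz₃) (vmul_lt_right hW.a₃ hvw₃)),
    ?_⟩
  -- the chord identity
  have hchord : (wPar W P - wPar W R) *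
        chartDen (coeffsOf W) (zPar W P) (wPar W P) (wPar W R) =
      (zPar W P - zPar W R) * chartNum (coeffsOf W) (zPar W P) (zPar W R) (wPar W R) := by
    simp only [chartDen, chartNum, coeffsOf]
    linear_combination heP - heR
  have hll : wPar W P - wPar W R = (zPar W P - zPar W R) * l := by
    rw [hl, mul_div, eq_div_iff hD0]; exact hchord
  -- a point and the origin, or two opposite points: the line passes through the origin
  have key : ∀ {z w : L}, z ≠ 0 → l * z = w → m = 0 →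
      (w + W.a₁ * z * w + W.a₃ * w ^ 2 =
        z ^ 3 + W.a₂ * z ^ 2 * w + W.a₄ * z * w ^ 2 + W.a₆ * w ^ 3) →
      v (chartNeg (coeffsOf W) z w) = 1 →
      chartSum (coeffsOf W) l m / chartLead (coeffsOf W) l - z =
          -z / chartNeg (coeffsOf W) z w ∧
        l * (-z / chartNeg (coeffsOf W) z w) + m = -w / chartNeg (coeffsOf W) z w := by
    intro z w hz hlz hm0 he hu
    subst hm0
    rw [add_zero]
    exact sum_through_origin hz hlz he hu hU
  rcases P with _ | ⟨x₁, y₁, h₁⟩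
  · rcases R with _ | ⟨x₂, y₂, h₂⟩
    · have hl0 : l = 0 := by rw [hl]; simp [chartNum, zPar, wPar]
      have hm0 : m = 0 := by rw [hm, hl0]; simp [zPar, wPar]
      have hz0 : z₃ = 0 := by rw [hz₃, hl0, hm0]; simp [chartSum, zPar]
      have hw0 : w₃ = 0 := by rw [hw₃, hl0, hm0]; simp
      rw [← Affine.Point.zero_def, add_zero, hz0, hw0]
      simp [zPar, wPar]
    · have hz2 : x₂ / y₂ ≠ 0 := (e1_facts hW h₂.1 hR).2.2.2.1
      have hm0 : m = 0 := by rw [hm]; simp [zPar, wPar]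
      have hlz : l * (x₂ / y₂) = y₂⁻¹ := by
        simp only [zPar, wPar] at hll
        linear_combination hll
      obtain ⟨h1, h2'⟩ := key hz2 hlz hm0 heR hu₂
      have hzz : z₃ = -(x₂ / y₂) / chartNeg (coeffsOf W) (x₂ / y₂) y₂⁻¹ := by
        rw [hz₃]; simpa [zPar] using h1
      rw [← Affine.Point.zero_def, zero_add]
      obtain ⟨-, hn1, hn2⟩ := chart_neg hW (InE1.neg hW hR)
      have hneg := chart_neg hW hR
      rw [show w₃ = wPar W (-Affine.Point.some x₂ y₂ h₂) by rw [hneg.2.2, hw₃, hzz]; exact h2',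
        show z₃ = zPar W (-Affine.Point.some x₂ y₂ h₂) by rw [hneg.2.1, hzz]; rfl,
        ← hn1, ← hn2, neg_neg]
      exact ⟨rfl, rfl⟩
  have hz1 : x₁ / y₁ ≠ 0 := (e1_facts hW h₁.1 hP).2.2.2.1
  have hne1 := chart_neg hW hP
  obtain ⟨-, hnn1, hnn2⟩ := chart_neg hW (InE1.neg hW hP)
  rcases R with _ | ⟨x₂, y₂, h₂⟩
  · have hlz : l * (x₁ / y₁) = y₁⁻¹ := by
      simp only [zPar, wPar] at hll
      linear_combination -hll
    have hm0 : m = 0 := by rw [hm]; simp only [zPar, wPar]; linear_combination -hlz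
    obtain ⟨h1, h2'⟩ := key hz1 hlz hm0 heP hu₁
    have hzz : z₃ = -(x₁ / y₁) / chartNeg (coeffsOf W) (x₁ / y₁) y₁⁻¹ := by
      rw [hz₃]; simpa [zPar] using h1
    rw [← Affine.Point.zero_def, add_zero,
      show w₃ = wPar W (-Affine.Point.some x₁ y₁ h₁) by rw [hne1.2.2, hw₃, hzz]; exact h2',
      show z₃ = zPar W (-Affine.Point.some x₁ y₁ h₁) by rw [hne1.2.1, hzz]; rfl,
      ← hnn1, ← hnn2, neg_neg]
    exact ⟨rfl, rfl⟩
  by_cases hxy : x₁ = x₂ ∧ y₁ = W.toAffine.negY x₂ y₂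
  · have hsum := Affine.Point.add_of_Y_eq (h₁ := h₁) (h₂ := h₂) hxy.1 hxy.2
    have hopp : Affine.Point.some x₂ y₂ h₂ = -Affine.Point.some x₁ y₁ h₁ :=
      eq_neg_of_add_eq_zero_right hsum
    rw [hopp] at hz₃ hll
    rw [hsum]
    set u := chartNeg (coeffsOf W) (x₁ / y₁) y₁⁻¹ with hu
    have hu0 : u ≠ 0 := v.ne_zero_iff.1 (by
      rw [hu]; simp only [zPar, wPar] at hu₁; rw [hu₁]; exact one_ne_zero)
    simp only [zPar, wPar] at hu₁
    rw [hne1.2.1, hne1.2.2] at hll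
    rw [hne1.2.1] at hz₃
    change y₁⁻¹ - -y₁⁻¹ / u = (x₁ / y₁ - -(x₁ / y₁) / u) * l at hll
    have hu1 : (1 + u) ≠ 0 := by
      intro h0
      have h : v (u - 1) < 1 := by
        rw [hu, chartNeg, show ∀ a b : L, 1 + a + b - 1 = a + b from fun a b => by ring]
        exact v.map_add_lt (vmul_lt_right hW.a₁ hzP) (vmul_lt_right hW.a₃ hwP)
      rw [show u - 1 = -2 by linear_combination h0, Valuation.map_neg, h2] at h
      exact lt_irrefl _ h
    have hlz : l * (x₁ / y₁) = y₁⁻¹ := by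
      refine mul_right_cancel₀ hu1 ?_
      have h := congrArg (· * u) hll
      simp only [neg_div, sub_neg_eq_add, add_mul, div_mul_cancel₀ _ hu0] at h
      have e : (x₁ / y₁) * l * u + (x₁ / y₁) * l = ((x₁ / y₁) * u + (x₁ / y₁)) * l := by ring
      linear_combination (norm := (field_simp; ring_nf)) -h
    have hm0 : m = 0 := by rw [hm]; simp only [zPar, wPar]; linear_combination -hlz
    obtain ⟨h1, -⟩ := key hz1 hlz hm0 heP hu₁
    have hzz : z₃ = 0 := by
      rw [hz₃]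
      simp only [zPar, wPar] at h1 ⊢
      linear_combination h1
    rw [hw₃, hzz, hm0]
    simp [zPar, wPar]
  -- two points not opposite
  rw [Affine.Point.add_some hxy]
  obtain ⟨-, hy10, -, -, -⟩ := e1_facts hW h₁.1 hP
  obtain ⟨-, hy20, -, -, -⟩ := e1_facts hW h₂.1 hR
  obtain ⟨sl, ν, x₃, hsl, hx3, he₃, hadd, hY1, hY2, hS1, hS2, hS3⟩ := vieta h₁.1 h₂.1 hxy
  obtain ⟨hνm, hslm⟩ := line_at_infinity h₁.1 h₂.1 hy10 hy20 hxy hsl hY1 rfl rfl hD0
    (l := l) (m := m) hl hm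
  obtain ⟨y₃, hY3⟩ : ∃ y₃, y₃ = sl * x₃ + ν := ⟨_, rfl⟩
  rw [← hY3] at he₃ hadd
  have hline3 : 1 = l * x₃ + m * y₃ := by
    rw [hY3]; linear_combination -x₃ * hslm - hνm
  have hx31 : 1 < v x₃ := by
    by_contra hc
    push Not at hc
    have hy31 := vy_le hW he₃ hc
    have : v (1 : L) < 1 := by
      rw [hline3]
      exact v.map_add_lt (vmul_lt_left hvl hc) (vmul_lt_left hvm hy31)
    rw [map_one] at this
    exact lt_irrefl _ this
  obtain ⟨-, hy30, -, -, -⟩ := e1_facts hW he₃ hx31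
  have hprod : y₁ * y₂ * y₃ * m ^ 3 = chartLead (coeffsOf W) l := by
    have e : y₁ * y₂ * y₃ =
        ν ^ 3 - W.a₂ * sl * ν ^ 2 + W.a₄ * sl ^ 2 * ν - W.a₆ * sl ^ 3 := by
      rw [hY1, hY2, hY3]
      linear_combination sl * ν ^ 2 * hS1 + sl ^ 2 * ν * hS2 + sl ^ 3 * hS3
    calc y₁ * y₂ * y₃ * m ^ 3
        = (ν * m) ^ 3 - W.a₂ * (sl * m) * (ν * m) ^ 2 + W.a₄ * (sl * m) ^ 2 * (ν * m) -
            W.a₆ * (sl * m) ^ 3 := by rw [e]; ring
      _ = _ := by rw [hνm, hslm]; simp only [chartLead, coeffsOf]; ring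
  have hsum3 : (x₁ * y₂ * y₃ + x₂ * y₁ * y₃ + x₃ * y₁ * y₂) * m ^ 3 =
      chartSum (coeffsOf W) l m := by
    have e : x₁ * y₂ * y₃ + x₂ * y₁ * y₃ + x₃ * y₁ * y₂ =
        W.a₃ * sl ^ 2 * ν - 3 * W.a₆ * sl ^ 2 + 2 * W.a₄ * sl * ν - W.a₁ * sl * ν ^ 2 -
          W.a₂ * ν ^ 2 := by
      rw [hY1, hY2, hY3]
      linear_combination ν ^ 2 * hS1 + 2 * sl * ν * hS2 + 3 * sl ^ 2 * hS3
    calc (x₁ * y₂ * y₃ + x₂ * y₁ * y₃ + x₃ * y₁ * y₂) * m ^ 3
        = W.a₃ * (sl * m) ^ 2 * (ν * m) - 3 * W.a₆ * (sl * m) ^ 2 * m +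
            2 * W.a₄ * (sl * m) * (ν * m) * m - W.a₁ * (sl * m) * (ν * m) ^ 2 -
            W.a₂ * (ν * m) ^ 2 * m := by rw [e]; ring
      _ = _ := by rw [hνm, hslm]; simp only [chartSum, coeffsOf]; ring
  have hm0 : m ≠ 0 := right_ne_zero_of_mul_eq_one hνm
  have hz3 : z₃ = x₃ / y₃ := by
    rw [hz₃, ← hprod, ← hsum3]
    simp only [zPar]
    field_simp
    ring
  have hw3 : w₃ = y₃⁻¹ := by
    rw [hw₃, hz3]
    field_simp
    linear_combination -hline3
  have h₃ : W.toAffine.Nonsingular x₃ y₃ := by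
    have := Affine.nonsingular_negAdd h₁ h₂ hxy
    rw [← hsl, ← hx3] at this
    convert this using 1
    rw [hY3, Affine.negAddY, ← hx3, hY1]; ring
  obtain ⟨-, hn1, hn2⟩ := chart_neg hW (P := Affine.Point.some x₃ y₃ h₃) hx31
  rw [Affine.Point.neg_some] at hn1 hn2
  simp only [← hsl, hadd, ← hx3, hz3, hw3]
  exact ⟨hn1, hn2⟩

end Fermat.Agent.General.Flat
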