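import Fermat.Agent.General.Flat.Bound
import Fermat.Agent.General.Flat.Closed
import Fermat.Agent.General.FlatSS
import Fermat.Agent.RowS56.CondFlat

/-!
# The flat condition as a condition at `p`

First-order points of the flat condition at a place lie in the flat condition of Fontaine kernels;
in supersingular shape this is a condition at `p` of dimension at most four.
-/

set_option autoImplicit false

noncomputable section

namespace Fermat.Agent.General.Flat

open Fermat.Agent.FlatJ0 Fermat.Agent.DefRing Fermat.Agent.Engine Fermat.Agent.RowS56 Matrix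
open Fermat.Agent.Deform (cocOf)

local notation "Ω" => AlgebraicClosure ℚ
local notation "G_ℚ" => (AlgebraicClosure ℚ) ≃ₐ[ℚ] (AlgebraicClosure ℚ)

variable {k : Type} [Field k] {A : ValuationSubring Ω} {p : ℕ} [Fact p.Prime] [CharP k p]
  {ρ : MRep k}

/-- The coordinates of a representation on the decomposition group. -/
def atPlace {B : Type} [Semiring B] (A : ValuationSubring Ω)
    (N : G_ℚ →* Matrix (Fin 2) (Fin 2) B) : A.decompositionSubgroup ℚ × Fin 2 × Fin 2 → B :=
  fun i => N (i.1 : G_ℚ) i.2.1 i.2.2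

omit [CharP k p] in
/-- A model of a representation over a ring killed by `p` gives a kernel with the bound. -/
theorem isBoundKernel_modelKer (h : IsOver A p) {B : Type} [CommRing B] [Finite B]
    (hpB : (p : B) = 0) {N : G_ℚ →* Matrix (Fin 2) (Fin 2) B} (red : B →+* k)
    (hred : ∀ σ, (N σ).map red = ρ σ) {F : IntermediateField ℚ Ω} [FiniteDimensional ℚ F]
    (hF : ∀ σ ∈ F.fixingSubgroup, N σ = 1) (hflat : FlatMem A (atPlace A N)) :
    IsBoundKernel A p (modelKer A p (matAct N)) ρ ∧
      ∀ σ ∈ modelKer A p (matAct N), N σ = 1 := by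
  let : Module (ZMod p) (Fin 2 → B) := AddCommGroup.zmodModule fun v => by
    rw [← Nat.cast_smul_eq_nsmul B, hpB, zero_smul]
  obtain ⟨M, hM⟩ := hflat
  have hM' : IsModelAt A (fun (σ : A.decompositionSubgroup ℚ) x => matAct N σ x) M := hM
  have hker : ∀ σ ∈ modelKer A p (matAct N), N σ = 1 := fun σ hσ =>
    Matrix.ext_of_mulVec_single fun i => by
      rw [one_mulVec, ← matAct_apply, (mem_modelKer.mp hσ).1.2]
      rfl
  have hρ1 : ∀ σ, N σ = 1 → ρ σ = 1 := fun σ e => by
    rw [← hred, e, Matrix.map_one _ (map_zero red) (map_one red)]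
  have hF' : ∀ σ ∈ F.fixingSubgroup, matAct N σ = 1 := fun σ hσ => DFunLike.ext _ _ fun v => by
    rw [matAct_apply, hF σ hσ, one_mulVec]
    rfl
  exact ⟨{ le := modelKer_le
           normal := modelKer_normal
           isOpen := modelKer_isOpenAt hF'
           bound := fun γ hγ => hasBoundAt h hM' hF' hγ
           trivial := fun σ hσ => hρ1 σ (hker σ hσ)
           continuous := ⟨F, inferInstance, fun σ hσ => hρ1 σ (hF σ hσ)⟩ }, hker⟩

/-- A flat residual representation has a kernel with the bound. -/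
theorem exists_isBoundKernel [Finite k] (h : IsOver A p) {F : IntermediateField ℚ Ω}
    [FiniteDimensional ℚ F] (hF : ∀ σ ∈ F.fixingSubgroup, ρ σ = 1)
    (hflat : FlatMem A (atPlace A ρ)) : ∃ N, IsBoundKernel A p N ρ :=
  ⟨_, (isBoundKernel_modelKer h (CharP.cast_eq_zero k p) (RingHom.id k)
    (fun σ => by rw [RingHom.coe_id, Matrix.map_id]) hF hflat).1⟩

/-- **First order points of the flat condition lie in the flat condition on cocycles.** -/
theorem cocOf_mem_flatCond [Finite k] (h : IsOver A p)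
    {N' : G_ℚ →* Matrix (Fin 2) (Fin 2) (DualNumber k)}
    (hfst : ∀ σ, (N' σ).map TrivSqZeroExt.fst = ρ σ) (htr : ∀ σ, (cocOf ρ N' σ).trace = 0)
    {F : IntermediateField ℚ Ω} [FiniteDimensional ℚ F]
    (hF : ∀ σ ∈ F.fixingSubgroup, N' σ = 1) (hflat : FlatMem A (atPlace A N')) :
    (fun σ : A.decompositionSubgroup ℚ => cocOf ρ N' σ) ∈ flatCond A p ρ := by
  have : Finite (DualNumber k) := inferInstanceAs (Finite (k × k))
  have hp : ((p : ℕ) : DualNumber k) = 0 := by
    rw [← map_natCast (algebraMap k (DualNumber k)), CharP.cast_eq_zero, map_zero]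
  obtain ⟨hbk, hker⟩ := isBoundKernel_modelKer h hp
    (TrivSqZeroExt.fstHom k k k).toRingHom hfst hF hflat
  have h0 : ∀ σ, N' σ = 1 → cocOf ρ N' σ = 0 := fun σ e => by
    rw [cocOf, e, show (1 : Matrix (Fin 2) (Fin 2) (DualNumber k)).map TrivSqZeroExt.snd = 0 by
      rw [← Deform.dualMat_one, Deform.snd_dualMat], zero_mul]
  refine mem_flatCond hbk ⟨fun σ τ => ?_, fun σ => htr σ, fun σ hσ => h0 _ (hker _ hσ), F,
    inferInstance, fun σ hσ => h0 _ (hF _ hσ)⟩
  beta_reduce
  rw [Subgroup.coe_mul, Deform.cocOf_mul hfst, Deform.adRep_apply, add_comm]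

/-- **The condition at a supersingular `p`**: dimension at most four, containing the first order
points of the flat condition. -/
theorem exists_flatClosed_condAtP [Finite k] (hp : p ≠ 2) (hA : A.LiesOverPrime p)
    (hρ : IsSSFlatShape A p ρ) {F₀ : IntermediateField ℚ Ω} [FiniteDimensional ℚ F₀]
    (hF₀ : ∀ σ ∈ F₀.fixingSubgroup, ρ σ = 1) (hflat : FlatMem A (atPlace A ρ)) :
    ∃ L : CondAtP ρ p, L.place = A ∧
      ∀ N' : G_ℚ →* Matrix (Fin 2) (Fin 2) (DualNumber k),
        (∀ σ, (N' σ).map TrivSqZeroExt.fst = ρ σ) → (∀ σ, (cocOf ρ N' σ).trace = 0) →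
        (∃ F : IntermediateField ℚ Ω, FiniteDimensional ℚ F ∧
          ∀ σ ∈ F.fixingSubgroup, N' σ = 1) →
        FlatMem A (atPlace A N') →
        (fun g : L.place.decompositionSubgroup ℚ => cocOf ρ N' g) ∈ L.cond := by
  have h : IsOver A p := ⟨Fact.out, hA⟩
  obtain ⟨N₀, hN₀⟩ := exists_isBoundKernel h hF₀ hflat
  obtain ⟨hfin, hle⟩ := finrank_flatCond_le_ss h hp hρ
  refine ⟨⟨A, hA, flatCond A p ρ, fun c hc => ?_, fun X hX => ?_, hfin, hle⟩, rfl,
    fun N' h1 h2 ⟨F, hF, h3⟩ h4 => ?_⟩
  · obtain ⟨N, -, h'⟩ := (mem_flatCond_iff hN₀).1 hc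
    exact ⟨h'.1, h'.2.1⟩
  · exact mem_flatCond hN₀ (adCoboundaries_le hN₀ ⟨X, hX, fun g => rfl⟩)
  · have := hF
    exact cocOf_mem_flatCond h h1 h2 h3 h4

end Fermat.Agent.General.Flat

end
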