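import Fermat.Agent.RowS56.Model.Conn
import Fermat.Agent.Deform.Framed

/-!
# Finite flat models at a place

Finite flat models of modules over a decomposition group: lattices of equivariant functions over
the integers of the decomposition field.
-/

set_option autoImplicit false

noncomputable section

namespace Fermat.Agent.General.Flat

open Fermat.Agent.FlatJ0 Fermat.Agent.GalCoh.Descent Module Fermat.Agent.Deform

local notation "Ω" => AlgebraicClosure ℚ
local notation "G_ℚ" => (AlgebraicClosure ℚ) ≃ₐ[ℚ] (AlgebraicClosure ℚ)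

/-- The integers of the decomposition field. -/
abbrev localRing (A : ValuationSubring Ω) : Subring Ω := fixRing A (A.decompositionSubgroup ℚ)

variable {A : ValuationSubring Ω} {W : Type} [AddCommGroup W]

/-- Functions of a finite flat model over the integers of the decomposition field of the module
`W`. -/
structure IsModelAt (A : ValuationSubring Ω) (act : A.decompositionSubgroup ℚ → W → W)
    (M : Subalgebra ↥(localRing A) (W → Ω)) : Prop where
  fg : (Subalgebra.toSubmodule M).FG
  equiv : ∀ f ∈ M, ∀ (σ : A.decompositionSubgroup ℚ) (x : W), f (act σ x) = (σ : G_ℚ) (f x)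
  sep : ∀ x y : W, (∀ f ∈ M, f x = f y) → x = y
  comul : ∀ f ∈ M, ∃ (n : ℕ) (a b : Fin n → W → Ω), (∀ i, a i ∈ M) ∧ (∀ i, b i ∈ M) ∧
    ∀ x y, f (x + y) = ∑ i, a i x * b i y

/-- The module has a finite flat model at the place. -/
def HasModelAt (A : ValuationSubring Ω) (act : A.decompositionSubgroup ℚ → W → W) : Prop :=
  ∃ M, IsModelAt A act M

/-- The action of coordinates of matrices on vectors. -/
def mulVecAct {B : Type} [NonUnitalNonAssocSemiring B]
    (e : A.decompositionSubgroup ℚ × Fin 2 × Fin 2 → B) (σ : A.decompositionSubgroup ℚ)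
    (v : Fin 2 → B) : Fin 2 → B :=
  (matAt e σ).mulVec v

/-- The coordinates have a finite flat model on the module they act on. -/
def FlatMem (A : ValuationSubring Ω) {B : Type} [CommRing B]
    (e : A.decompositionSubgroup ℚ × Fin 2 × Fin 2 → B) : Prop :=
  HasModelAt A (mulVecAct e)

/-- The equivariant functions. -/
def equivFnsAt (act : A.decompositionSubgroup ℚ → W → W) :
    Subalgebra ↥(localRing A) (W → Ω) where
  carrier := {f | ∀ (σ : A.decompositionSubgroup ℚ) x, f (act σ x) = (σ : G_ℚ) (f x)}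
  mul_mem' {f g} hf hg σ x := by simp only [Pi.mul_apply, map_mul]; rw [hf σ x, hg σ x]
  add_mem' {f g} hf hg σ x := by simp only [Pi.add_apply, map_add]; rw [hf σ x, hg σ x]
  algebraMap_mem' r σ x := (r.2.2 _ σ.2).symm

/-- The functions of `M` whose translates decompose within `M`. -/
def decomposableAt (M : Subalgebra ↥(localRing A) (W → Ω)) :
    Subalgebra ↥(localRing A) (W → Ω) where
  carrier := {f | f ∈ M ∧ ∃ (n : ℕ) (a b : Fin n → W → Ω), (∀ i, a i ∈ M) ∧ (∀ i, b i ∈ M) ∧
    ∀ x y, f (x + y) = ∑ i, a i x * b i y}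
  mul_mem' := by
    rintro f g ⟨hf, n, a, b, ha, hb, e⟩ ⟨hg, m, c, d, hc, hd, e'⟩
    refine ⟨M.mul_mem hf hg, n * m,
      fun k => a (finProdFinEquiv.symm k).1 * c (finProdFinEquiv.symm k).2,
      fun k => b (finProdFinEquiv.symm k).1 * d (finProdFinEquiv.symm k).2,
      fun k => M.mul_mem (ha _) (hc _), fun k => M.mul_mem (hb _) (hd _), fun x y => ?_⟩
    rw [Pi.mul_apply, e, e', Finset.sum_mul_sum, ← Finset.sum_product', Finset.univ_product_univ,
      ← finProdFinEquiv.symm.sum_comp]
    refine Finset.sum_congr rfl fun k _ => ?_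
    simp only [Pi.mul_apply]
    ring
  add_mem' := by
    rintro f g ⟨hf, n, a, b, ha, hb, e⟩ ⟨hg, m, c, d, hc, hd, e'⟩
    refine ⟨M.add_mem hf hg, n + m, Fin.append a c, Fin.append b d, fun i => ?_, fun i => ?_,
      fun x y => ?_⟩
    · induction i using Fin.addCases <;> simp [ha, hc]
    · induction i using Fin.addCases <;> simp [hb, hd]
    · simp [Fin.sum_univ_add, e, e']
  algebraMap_mem' r := ⟨M.algebraMap_mem r, 1, fun _ => algebraMap _ _ r, fun _ => 1,
    fun _ => M.algebraMap_mem r, fun _ => M.one_mem, fun x y => by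
      simp [Pi.algebraMap_apply]⟩

theorem localRing_mem (r : ↥(localRing A)) : (r : Ω) ∈ A := r.2.1

/-- A global model gives a model at every place over the prime. -/
theorem hasModelAt_of_isModel {p : ℕ} [Fact p.Prime] (h : IsOver A p) {act : G_ℚ →* AddMonoid.End W}
    {M : Subalgebra (GaloisRep.ratLocalizedAt p) (W → Ω)} (hM : RowS56.IsModel p act M) :
    HasModelAt A fun (σ : A.decompositionSubgroup ℚ) x => act σ x := by
  classical
  set N := Algebra.adjoin ↥(localRing A) (M : Set (W → Ω)) with hN
  have hsub : (M : Set (W → Ω)) ⊆ N := Algebra.subset_adjoin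
  have heq : N ≤ equivFnsAt fun (σ : A.decompositionSubgroup ℚ) x => act σ x :=
    Algebra.adjoin_le fun f hf σ x => hM.equiv f hf σ x
  have hdec : N ≤ decomposableAt N := Algebra.adjoin_le fun f hf => by
    obtain ⟨n, a, b, ha, hb, e⟩ := hM.comul f hf
    exact ⟨hsub hf, n, a, b, fun i => hsub (ha i), fun i => hsub (hb i), e⟩
  refine ⟨N, ⟨?_, fun f hf σ x => heq hf σ x, fun x y hxy => hM.sep x y fun f hf => hxy f (hsub hf),
    fun f hf => (hdec hf).2⟩⟩
  obtain ⟨t, ht⟩ := hM.fg
  refine ⟨t, le_antisymm (Submodule.span_le.mpr fun f hf => hsub ?_) ?_⟩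
  · exact (ht ▸ Submodule.subset_span hf : f ∈ Subalgebra.toSubmodule M)
  · rw [hN, Algebra.adjoin_eq_span,
      show (M : Set (W → Ω)) = (M.toSubsemiring.toSubmonoid : Set (W → Ω)) from rfl,
      Submonoid.closure_eq, Submodule.span_le]
    intro f hf
    have hf' : f ∈ Submodule.span (GaloisRep.ratLocalizedAt p) (t : Set (W → Ω)) := by
      rw [ht]; exact hf
    obtain ⟨c, -, rfl⟩ := Submodule.mem_span_finset.mp hf'
    refine Submodule.sum_mem _ fun g hg => ?_
    have hr : algebraMap (GaloisRep.ratLocalizedAt p) Ω (c g) ∈ localRing A :=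
      ⟨RowS56.algebraMap_mem h _, fun σ _ => σ.commutes (c g : ℚ)⟩
    have e : c g • g = (⟨_, hr⟩ : ↥(localRing A)) • g := funext fun x => by
      simp only [Pi.smul_apply, Algebra.smul_def]
      rfl
    rw [e]
    exact Submodule.smul_mem _ _ (Submodule.subset_span hg)

end Fermat.Agent.General.Flat

end
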