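import Fermat.Agent.General.Flat.ChartSum
import Fermat.Agent.EllLocal.Supersingular
import Fermat.Agent.EllLocal.OrdinaryTrace
import Fermat.Agent.EllLocal.FontaineBound
import Fermat.Agent.RowS56.Model.Lattice
import Mathlib.FieldTheory.Galois.Infinite
import Mathlib.RingTheory.IntegralClosure.IsIntegralClosure.Basic
import Mathlib.RingTheory.TensorProduct.Maps
import Mathlib.LinearAlgebra.TensorProduct.Finiteness

/-!
# Models of finite groups of points reducing to the origin

The algebra over `ℤ_(p)` of the chart functions `z = x / y` and `w = 1 / y` on a finite stable group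
of points reducing to the origin is a model: the chart expresses addition with unit denominators,
and an equivariant function with unit values has its inverse in the algebra it generates.  In
particular all the `p`-power torsion of a supersingular curve has a model.
-/

set_option autoImplicit false

noncomputable section

namespace Fermat.Agent.General.Flat

open Polynomial WeierstrassCurve Fermat.Agent.MultRed Fermat.Agent.EllLocal
open scoped TensorProduct WeierstrassCurve.Affine

local notation "Ω" => AlgebraicClosure ℚ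
local notation "G_ℚ" => (AlgebraicClosure ℚ) ≃ₐ[ℚ] (AlgebraicClosure ℚ)

attribute [local instance] EllLocal.instDecEqKA

local instance isAlgebraicQbar_em : Algebra.IsAlgebraic ℚ (AlgebraicClosure ℚ) :=
  AlgebraicClosure.isAlgebraic ℚ
local instance isGaloisQbar_em : IsGalois ℚ (AlgebraicClosure ℚ) :=
  have : IsAlgClosure ℚ (AlgebraicClosure ℚ) := ⟨inferInstance, inferInstance⟩
  have : Normal ℚ (AlgebraicClosure ℚ) := IsAlgClosure.normal ℚ (AlgebraicClosure ℚ)
  have : Algebra.IsSeparable ℚ (AlgebraicClosure ℚ) :=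
    Algebra.IsAlgebraic.isSeparable_of_perfectField
  IsGalois.mk

variable {p : ℕ}

local notation "Rp" => GaloisRep.ratLocalizedAt p

section

variable {W : WeierstrassCurve ℤ} [Fact p.Prime]

/-- Good reduction with `p` dividing the trace of Frobenius is supersingular. -/
theorem isGoodSupersingular_of_dvd (hgood : W.IsGoodPrimeFor p) (hap : (p : ℤ) ∣ W.apOfModel p) :
    IsGoodSupersingular W p := by
  refine ⟨hgood, fun hord => ?_⟩
  obtain ⟨A, hA⟩ := Frobenius.exists_liesOverPrime Ω (Fact.out : p.Prime)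
  obtain ⟨Q, hQ0, hQ⟩ := (ordinaryRedAt_iff hA hgood).2 hord
  have hinj : ∀ T : (curveK W A).Point, resMap W (residueFrob hA) T = 0 → T = 0 := by
    rintro (_ | ⟨a, b, h⟩) hT
    · rfl
    · obtain ⟨h', e⟩ := resMap_some W (residueFrob hA) h
      exact (WeierstrassCurve.Affine.Point.some_ne_zero _ (e.symm.trans hT)).elim
  have hrel := residueFrob_relation hA hgood Q
  obtain ⟨c, hc⟩ := hap
  have hQ' : (p : ℤ) • Q = 0 := by rw [natCast_zsmul, hQ]
  have hFQ : (p : ℤ) • resMap W (residueFrob hA) Q = 0 := by rw [← map_zsmul, hQ', map_zero]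
  rw [hQ', hc, mul_comm, mul_zsmul, hFQ, zsmul_zero, sub_zero, add_zero] at hrel
  exact hQ0 (hinj _ (hinj _ hrel))

end

variable {A : ValuationSubring Ω} {X : Type} [Fintype X]

/-- A rational number in the valuation ring is `p`-integral. -/
theorem mem_ratLocalizedAt (hp : p.Prime) (hA : A.LiesOverPrime p) {c : ℚ}
    (hc : algebraMap ℚ Ω c ∈ A) : c ∈ GaloisRep.ratLocalizedAt p := by
  show c.den.Coprime p
  rw [Nat.coprime_comm, hp.coprime_iff_not_dvd]
  intro hd
  have hden : (c.den : Ω) ≠ 0 := Nat.cast_ne_zero.2 c.den_nz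
  have e : (c.num : Ω) = algebraMap ℚ Ω c * (c.den : Ω) := by
    rw [← map_natCast (algebraMap ℚ Ω), ← map_mul, Rat.mul_den_eq_num, map_intCast]
  obtain ⟨d, hd'⟩ := hd
  have hlt : A.valuation (c.num : Ω) < 1 := by
    rw [e, hd', Nat.cast_mul, map_mul, map_mul]
    exact lt_of_le_of_lt (mul_le_of_le_one_left zero_le ((A.valuation_le_one_iff _).2 hc))
      (lt_of_le_of_lt (mul_le_of_le_one_right zero_le ((A.valuation_le_one_iff _).2
        (natCast_mem A d))) (vq_lt_one hA))
  have hn : ¬ (p : ℤ) ∣ c.num := fun h => by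
    have h1 : p ∣ c.num.natAbs := Int.natCast_dvd.1 h
    exact hp.one_lt.ne' (Nat.dvd_one.1 (c.reduced ▸ Nat.dvd_gcd h1 ⟨d, hd'⟩))
  exact hlt.ne (vint_eq_one hp hA hn)

section Integral

variable [Fact p.Prime] (hA : A.LiesOverPrime p) (act : G_ℚ → X → X)
  (hact : ∀ σ, Function.Bijective (act σ))
include hA hact

/-- An equivariant function with integral values is integral over `ℤ_(p)`. -/
theorem isIntegral_of_equivariant {f : X → Ω} (hf : ∀ σ x, f (act σ x) = σ (f x))
    (hfA : ∀ x, f x ∈ A) : IsIntegral Rp f := by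
  classical
  let P : Polynomial Ω := ∏ x, (Polynomial.X - C (f x))
  have hfix : ∀ (σ : G_ℚ) (i : ℕ), σ (P.coeff i) = P.coeff i := fun σ i => by
    have e : P.map (σ : Ω →+* Ω) = P := by
      simp only [P, Polynomial.map_prod, Polynomial.map_sub, map_X, map_C]
      refine Fintype.prod_bijective (act σ) (hact σ) _ _ fun x => ?_
      rw [hf]
      rfl
    conv_rhs => rw [← e, coeff_map]
    rfl
  have hmemA : ∀ i, P.coeff i ∈ A := fun i => by
    let Q : Polynomial A := ∏ x, (Polynomial.X - C (⟨f x, hfA x⟩ : A))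
    have e : Q.map A.subtype = P := by
      simp only [Q, P, Polynomial.map_prod, Polynomial.map_sub, map_X, map_C]
      rfl
    rw [← e, coeff_map]
    exact (Q.coeff i).2
  have hc : ∀ i, ∃ c : Rp, algebraMap Rp Ω c = P.coeff i := fun i => by
    obtain ⟨c, hc⟩ := (InfiniteGalois.mem_range_algebraMap_iff_fixed (k := ℚ) (P.coeff i)).2
      fun σ => hfix σ i
    exact ⟨⟨c, mem_ratLocalizedAt Fact.out hA (hc ▸ hmemA i)⟩, hc⟩
  obtain ⟨q, hq, -, hqm⟩ := lifts_and_degree_eq_and_monic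
    ((lifts_iff_coeff_lifts P).2 fun i => hc i) (monic_prod_X_sub_C _ _)
  refine ⟨q, hqm, funext fun x => ?_⟩
  change Pi.evalAlgHom Rp (fun _ : X => Ω) x (eval₂ (algebraMap Rp (X → Ω)) f q) = 0
  rw [← aeval_def, ← aeval_algHom_apply, Pi.evalAlgHom_apply, aeval_def, ← eval_map, hq,
    eval_prod]
  exact Finset.prod_eq_zero (Finset.mem_univ x) (by simp)

/-- The inverse of an equivariant function with unit values is a polynomial in it. -/
theorem inv_mem_adjoin {f : X → Ω} (hf : ∀ σ x, f (act σ x) = σ (f x))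
    (hfA : ∀ x, A.valuation (f x) = 1) : f⁻¹ ∈ Algebra.adjoin Rp {f} := by
  have h0 : ∀ x, f x ≠ 0 := fun x h => by simpa [h] using hfA x
  obtain ⟨q, hqm, hq⟩ := isIntegral_of_equivariant hA act hact (f := f⁻¹)
    (fun σ x => by rw [Pi.inv_apply, hf, Pi.inv_apply, map_inv₀])
    fun x => by rw [mem_iff_valuation_le, Pi.inv_apply, map_inv₀, hfA, inv_one]
  have h1 : f * f⁻¹ = 1 := funext fun x => mul_inv_cancel₀ (h0 x)
  change aeval f⁻¹ q = 0 at hq
  rw [aeval_eq_sum_range, Finset.sum_range_succ, hqm.coeff_natDegree, one_smul] at hq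
  rcases Nat.eq_zero_or_pos q.natDegree with hn | hn
  · have : (1 : X → Ω) = 0 := by simpa [hn] using hq
    rw [← mul_one f⁻¹, this, mul_zero]
    exact zero_mem _
  obtain ⟨n, hn'⟩ := Nat.exists_eq_add_one.2 hn
  have e : f⁻¹ = -∑ i ∈ Finset.range q.natDegree, q.coeff i • (f⁻¹ ^ i * f ^ n) := by
    have h2 : f⁻¹ ^ q.natDegree * f ^ n = f⁻¹ := by
      rw [hn', pow_succ', mul_assoc, ← mul_pow, mul_comm f⁻¹ f, h1, one_pow, mul_one]
    conv_lhs => rw [← h2, eq_neg_of_add_eq_zero_right hq, neg_mul, Finset.sum_mul]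
    exact congrArg Neg.neg (Finset.sum_congr rfl fun i _ => smul_mul_assoc _ _ _)
  rw [e]
  refine neg_mem (sum_mem fun i hi => Subalgebra.smul_mem _ ?_ _)
  rw [Finset.mem_range] at hi
  obtain ⟨j, rfl⟩ : ∃ j, n = i + j := ⟨n - i, by omega⟩
  have h3 : f⁻¹ ^ i * f ^ (i + j) = f ^ j := by
    rw [pow_add, ← mul_assoc, ← mul_pow, mul_comm f⁻¹ f, h1, one_pow, one_mul]
  rw [h3]
  exact pow_mem (Algebra.self_mem_adjoin_singleton Rp f) j

end Integral

/-- Pulling back functions. -/
def pullback (p : ℕ) {X Y : Type} (g : X → Y) :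
    (Y → Ω) →ₐ[GaloisRep.ratLocalizedAt p] (X → Ω) :=
  AlgHom.pi fun x => Pi.evalAlgHom _ _ (g x)

lemma pullback_apply {X Y : Type} (g : X → Y) (f : Y → Ω) : pullback p g f = f ∘ g := rfl

variable {W : WeierstrassCurve ℤ}

local notation "Pt" => PtQ (W.map (Int.castRingHom ℚ))

lemma wPar_smul (σ : G_ℚ) (P : Pt) : wPar (curveQbar W) (σ • P) = σ (wPar (curveQbar W) P) := by
  rcases P with _ | ⟨x, y, h⟩
  · exact (map_zero σ).symm
  · exact (map_inv₀ σ y).symm

variable [Fact p.Prime]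

/-- **A finite stable group of points reducing to the origin has a model.** -/
theorem exists_isModel_of_inE1 (hp2 : p ≠ 2) (hA : A.LiesOverPrime p) {V : Type} [AddCommGroup V]
    [Finite V] (act : G_ℚ →* AddMonoid.End V) (ι : V →+ Pt) (hinj : Function.Injective ι)
    (hι : ∀ σ x, ι (act σ x) = σ • ι x) (hE1 : ∀ x, InE1 A.valuation (curveQbar W) (ι x)) :
    ∃ M, RowS56.IsModel p act M := by
  classical
  have : Fintype V := Fintype.ofFinite V
  have hp : p.Prime := Fact.out
  have hW : IntCoeffs A.valuation (curveQbar W) := intCoeffs_curveQbar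
  have h2 : A.valuation (2 : Ω) = 1 := by
    simpa using vnat_eq_one hp hA (n := 2) fun h => hp2 ((Nat.prime_dvd_prime_iff_eq hp Nat.prime_two).1 h)
  let z : V → Ω := fun x => zPar (curveQbar W) (ι x)
  let w : V → Ω := fun x => wPar (curveQbar W) (ι x)
  have hz : ∀ σ x, z (act σ x) = σ (z x) := fun σ x => by
    show zPar _ (ι (act σ x)) = _
    rw [hι, zPar_smul]
  have hw : ∀ σ x, w (act σ x) = σ (w x) := fun σ x => by
    show wPar _ (ι (act σ x)) = _
    rw [hι, wPar_smul]
  have hbij : ∀ σ, Function.Bijective (act σ) := fun σ =>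
    Finite.injective_iff_bijective.1 fun x y h => hinj (by
      have := congrArg ι h
      rwa [hι, hι, smul_left_cancel_iff] at this)
  have hfacts := fun x => chart_facts hW (hE1 x)
  let M := Algebra.adjoin Rp ({z, w} : Set (V → Ω))
  have hzM : z ∈ M := Algebra.subset_adjoin (by simp)
  have hwM : w ∈ M := Algebra.subset_adjoin (by simp)
  refine ⟨M, ⟨?_, ?_, fun x y hxy => hinj ?_, ?_⟩⟩
  · refine _root_.fg_adjoin_of_finite (Set.toFinite _) fun f hf => ?_
    rcases hf with rfl | rfl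
    · exact isIntegral_of_equivariant hA (fun σ => act σ) hbij hz
        fun x => mem_iff_valuation_le.2 (hfacts x).1.le
    · exact isIntegral_of_equivariant hA (fun σ => act σ) hbij hw
        fun x => mem_iff_valuation_le.2 (hfacts x).2.1.le
  · intro f hf σ x
    induction hf using Algebra.adjoin_induction with
    | mem f hf => rcases hf with rfl | rfl; exacts [hz σ x, hw σ x]
    | algebraMap r => exact (σ.commutes (r : ℚ)).symm
    | add f g _ _ h1 h2 => simp [h1, h2]
    | mul f g _ _ h1 h2 => simp [h1, h2]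
  · -- separation
    have e1 : zPar (curveQbar W) (ι x) = zPar (curveQbar W) (ι y) := hxy z hzM
    have e2 : wPar (curveQbar W) (ι x) = wPar (curveQbar W) (ι y) := hxy w hwM
    have hx := hE1 x
    have hy := hE1 y
    revert e1 e2 hx hy
    generalize ι x = P, ι y = R
    intro e1 e2 hx hy
    rcases P with _ | ⟨x₁, y₁, h₁⟩ <;> rcases R with _ | ⟨x₂, y₂, h₂⟩
    · rfl
    · exact absurd e2.symm (inv_ne_zero (e1_facts hW h₂.1 hy).2.1)
    · exact absurd e2 (inv_ne_zero (e1_facts hW h₁.1 hx).2.1)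
    · obtain rfl : y₁ = y₂ := inv_injective e2
      have hy0 := (e1_facts hW h₁.1 hx).2.1
      obtain rfl : x₁ = x₂ := (div_left_inj' hy0).1 e1
      rfl
  -- comultiplication
  intro f hf
  let z₁ : V × V → Ω := z ∘ Prod.fst
  let z₂ : V × V → Ω := z ∘ Prod.snd
  let w₁ : V × V → Ω := w ∘ Prod.fst
  let w₂ : V × V → Ω := w ∘ Prod.snd
  let H := Algebra.adjoin Rp ({z₁, z₂, w₁, w₂} : Set (V × V → Ω))
  let act2 : G_ℚ → V × V → V × V := fun σ q => (act σ q.1, act σ q.2)
  have hbij2 : ∀ σ, Function.Bijective (act2 σ) := fun σ => (hbij σ).prodMap (hbij σ)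
  let c : ChartCoeffs (V × V → Ω) := ⟨(W.a₁ : V × V → Ω), (W.a₂ : V × V → Ω), (W.a₃ : V × V → Ω),
    (W.a₄ : V × V → Ω), (W.a₆ : V × V → Ω)⟩
  have hc : ∀ q, (⟨c.a₁ q, c.a₂ q, c.a₃ q, c.a₄ q, c.a₆ q⟩ : ChartCoeffs Ω) =
      coeffsOf (curveQbar W) := fun q => by
    simp [c, coeffsOf, curveQbar, WeierstrassCurve.baseChange, WeierstrassCurve.map]
  have hequiv : ∀ g ∈ H, ∀ σ q, g (act2 σ q) = σ (g q) := by
    intro g hg σ q
    induction hg using Algebra.adjoin_induction with
    | mem g hg =>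
      rcases hg with rfl | rfl | rfl | rfl
      exacts [hz σ q.1, hz σ q.2, hw σ q.1, hw σ q.2]
    | algebraMap r => exact (σ.commutes (r : ℚ)).symm
    | add f g _ _ h1 h2 => simp [h1, h2]
    | mul f g _ _ h1 h2 => simp [h1, h2]
  have hinv : ∀ g ∈ H, (∀ q, A.valuation (g q) = 1) → g⁻¹ ∈ H := fun g hg h1 =>
    Algebra.adjoin_le (Set.singleton_subset_iff.2 hg)
      (inv_mem_adjoin hA act2 hbij2 (hequiv g hg) h1)
  have m1 : z₁ ∈ H := Algebra.subset_adjoin (by simp)
  have m2 : z₂ ∈ H := Algebra.subset_adjoin (by simp)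
  have m3 : w₁ ∈ H := Algebra.subset_adjoin (by simp)
  have m4 : w₂ ∈ H := Algebra.subset_adjoin (by simp)
  have hk : ∀ k : ℤ, (k : V × V → Ω) ∈ H := intCast_mem H
  have hn : ∀ n : ℕ, (n : V × V → Ω) ∈ H := natCast_mem H
  let D := chartDen c z₁ w₁ w₂
  let l := chartNum c z₁ z₂ w₂ * D⁻¹
  let m := w₁ - l * z₁
  let U := chartLead c l
  let z₃ := chartSum c l m * U⁻¹ - z₁ - z₂
  let w₃ := l * z₃ + m
  let u := chartNeg c z₃ w₃
  have hval : ∀ q : V × V, A.valuation (D q) = 1 ∧ A.valuation (U q) = 1 ∧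
      A.valuation (u q) = 1 ∧ z (q.1 + q.2) = (-z₃ * u⁻¹) q ∧ w (q.1 + q.2) = (-w₃ * u⁻¹) q := by
    intro q
    obtain ⟨hD, h⟩ := chart_add hW h2 (hE1 q.1) (hE1 q.2)
    have eD : D q = chartDen (coeffsOf (curveQbar W)) (z q.1) (w q.1) (w q.2) := by
      rw [← hc q]; rfl
    have eU : U q = chartLead (coeffsOf (curveQbar W)) (l q) := by rw [← hc q]; rfl
    have eu : u q = chartNeg (coeffsOf (curveQbar W)) (z₃ q) (w₃ q) := by rw [← hc q]; rfl
    obtain ⟨hU, hu, e1, e2⟩ := h (l q) (m q) (z₃ q) (w₃ q)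
      (by rw [← hc q]; exact (div_eq_mul_inv _ _).symm) rfl
      (by rw [← hc q]; exact congrArg (· - z q.1 - z q.2) (div_eq_mul_inv _ _).symm) rfl
    refine ⟨eD ▸ hD, eU ▸ hU, eu ▸ hu, ?_, ?_⟩
    · show zPar _ (ι (q.1 + q.2)) = _
      rw [map_add, e1, ← eu, Pi.mul_apply, Pi.inv_apply, Pi.neg_apply, div_eq_mul_inv]
    · show wPar _ (ι (q.1 + q.2)) = _
      rw [map_add, e2, ← eu, Pi.mul_apply, Pi.inv_apply, Pi.neg_apply, div_eq_mul_inv]
  have hDH : D ∈ H := by
    simp only [D, chartDen, c]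
    exact sub_mem (sub_mem (sub_mem (add_mem (add_mem (one_mem H) (mul_mem (hk _) m1))
      (mul_mem (hk _) (add_mem m3 m4))) (mul_mem (hk _) (pow_mem m1 2)))
      (mul_mem (mul_mem (hk _) m1) (add_mem m3 m4)))
      (mul_mem (hk _) (add_mem (add_mem (pow_mem m3 2) (mul_mem m3 m4)) (pow_mem m4 2)))
  have hlH : l ∈ H := by
    refine mul_mem ?_ (hinv D hDH fun q => (hval q).1)
    simp only [chartNum, c]
    exact sub_mem (add_mem (add_mem (add_mem (add_mem (pow_mem m1 2) (mul_mem m1 m2))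
      (pow_mem m2 2)) (mul_mem (mul_mem (hk _) (add_mem m1 m2)) m4))
      (mul_mem (hk _) (pow_mem m4 2))) (mul_mem (hk _) m4)
  have hmH : m ∈ H := sub_mem m3 (mul_mem hlH m1)
  have hUH : U ∈ H := by
    simp only [U, chartLead, c]
    exact add_mem (add_mem (add_mem (one_mem H) (mul_mem (hk _) hlH))
      (mul_mem (hk _) (pow_mem hlH 2))) (mul_mem (hk _) (pow_mem hlH 3))
  have hz₃H : z₃ ∈ H := by
    refine sub_mem (sub_mem (mul_mem ?_ (hinv U hUH fun q => (hval q).2.1)) m1) m2
    simp only [chartSum, c]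
    exact sub_mem (add_mem (sub_mem (sub_mem (mul_mem (hk _) (pow_mem hlH 2))
      (mul_mem (mul_mem (mul_mem (hn 3) (hk _)) (pow_mem hlH 2)) hmH))
      (mul_mem (mul_mem (mul_mem (hn 2) (hk _)) hlH) hmH)) (mul_mem (hk _) hlH))
      (mul_mem (hk _) hmH)
  have hw₃H : w₃ ∈ H := add_mem (mul_mem hlH hz₃H) hmH
  have huH : u⁻¹ ∈ H := by
    refine hinv u ?_ fun q => (hval q).2.2.1
    simp only [u, chartNeg, c]
    exact add_mem (add_mem (one_mem H) (mul_mem (hk _) hz₃H)) (mul_mem (hk _) hw₃H)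
  have hadd : M ≤ H.comap (pullback p fun q : V × V => q.1 + q.2) := by
    refine Algebra.adjoin_le ?_
    rintro g (rfl | rfl)
    · show pullback p _ z ∈ H
      rw [show pullback p (fun q : V × V => q.1 + q.2) z = -z₃ * u⁻¹ from
        funext fun q => (hval q).2.2.2.1]
      exact mul_mem (neg_mem hz₃H) huH
    · show pullback p _ w ∈ H
      rw [show pullback p (fun q : V × V => q.1 + q.2) w = -w₃ * u⁻¹ from
        funext fun q => (hval q).2.2.2.2]
      exact mul_mem (neg_mem hw₃H) huH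
  let Φ : M ⊗[Rp] M →ₐ[Rp] (V × V → Ω) :=
    Algebra.TensorProduct.productMap ((pullback p Prod.fst).comp M.val)
      ((pullback p Prod.snd).comp M.val)
  have hΦ : H ≤ Φ.range := by
    refine Algebra.adjoin_le ?_
    rintro g (rfl | rfl | rfl | rfl)
    · exact ⟨⟨z, hzM⟩ ⊗ₜ 1, by simp [Φ, pullback_apply, z₁]⟩
    · exact ⟨1 ⊗ₜ ⟨z, hzM⟩, by simp [Φ, pullback_apply, z₂]⟩
    · exact ⟨⟨w, hwM⟩ ⊗ₜ 1, by simp [Φ, pullback_apply, w₁]⟩
    · exact ⟨1 ⊗ₜ ⟨w, hwM⟩, by simp [Φ, pullback_apply, w₂]⟩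
  obtain ⟨t, ht⟩ := hΦ (hadd hf)
  obtain ⟨S, hS⟩ := TensorProduct.exists_finset (R := Rp) t
  refine ⟨S.card, fun i => ((S.equivFin.symm i).1.1 : V → Ω),
    fun i => ((S.equivFin.symm i).1.2 : V → Ω), fun i => Subtype.prop _, fun i => Subtype.prop _,
    fun x y => ?_⟩
  have e : f (x + y) = Φ t (x, y) := (congrFun ht (x, y)).symm
  rw [e, hS, map_sum, Finset.sum_apply, ← Finset.sum_coe_sort S]
  exact (S.equivFin.symm.sum_comp fun s : S => (s.1.1 : V → Ω) x * (s.1.2 : V → Ω) y).symm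

/-- Torsion of `p`-power order of a supersingular curve reduces to the origin. -/
theorem inE1_of_pow_nsmul (hp2 : p ≠ 2) (h : IsGoodSupersingular W p) (hA : A.LiesOverPrime p) :
    ∀ (m : ℕ) (P : Pt), p ^ m • P = 0 → InE1 A.valuation (curveQbar W) P := by
  have hp : p.Prime := Fact.out
  intro m P hP
  refine (residueRed_eq_zero_iff hp hA h.1 P).1 ?_
  have key : ∀ m, ∀ Q : (curveK W A).Point, p ^ m • Q = 0 → Q = 0 := fun m => by
    induction m with
    | zero => intro Q hQ; simpa using hQ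
    | succ m ih =>
      intro Q hQ
      refine ih Q ?_
      rw [pow_succ', mul_nsmul'] at hQ
      obtain ⟨R, hR, hRQ⟩ := exists_residueRed_eq hp hA h.1 hp.ne_zero hQ
      rw [← hRQ]
      exact (residueRed_eq_zero_iff hp hA h.1 R).2
        (inE1At_of_nsmul hA (hp.odd_of_ne_two hp2) h hR)
  exact key m _ (by rw [← map_nsmul, hP, map_zero])

/-- **Every finite stable group of `p`-power torsion points of a supersingular curve has a
model.** -/
theorem exists_isModel_supersingular (hp2 : p ≠ 2) (h : IsGoodSupersingular W p) {V : Type}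
    [AddCommGroup V] [Finite V] (act : G_ℚ →* AddMonoid.End V) (ι : V →+ Pt)
    (hinj : Function.Injective ι) (hι : ∀ σ x, ι (act σ x) = σ • ι x) (m : ℕ)
    (htor : ∀ x : V, p ^ m • x = 0) : ∃ M, RowS56.IsModel p act M := by
  obtain ⟨A, hA⟩ := Frobenius.exists_liesOverPrime Ω (Fact.out : p.Prime)
  exact exists_isModel_of_inE1 hp2 hA act ι hinj hι fun x =>
    inE1_of_pow_nsmul hp2 h hA m _ (by rw [← map_nsmul, htor, map_zero])

end Fermat.Agent.General.Flat
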