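import Fermat.Agent.General.Flat.Ops

/-!
# Lattices of models

Lattice lemmas for a model at a place: values and characters are integral, `p`-th roots.
-/

set_option autoImplicit false

noncomputable section

namespace Fermat.Agent.General.Flat

open Fermat.Agent.FlatJ0 Fermat.Agent.GalCoh.Descent Module RowS56

local notation "Ω" => AlgebraicClosure ℚ

/-- A basis of functions of a model with coordinates of the model in the integers of the
decomposition field. -/
structure IsBasisAt {A : ValuationSubring Ω} {W : Type} {ι : Type}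
    (M : Subalgebra ↥(localRing A) (W → Ω)) (b : Basis ι Ω (W → Ω)) : Prop where
  mem : ∀ i, b i ∈ M
  repr_mem : ∀ f ∈ M, ∀ i, b.repr f i ∈ localRing A

variable {A : ValuationSubring Ω} {p : ℕ} [Fact p.Prime] {W : Type} [AddCommGroup W] [Finite W]
  {act : A.decompositionSubgroup ℚ → W → W} {M : Subalgebra ↥(localRing A) (W → Ω)}
  {ι : Type} [Fintype ι] {b : Basis ι Ω (W → Ω)}

/-- A lattice basis of a model. -/
theorem IsModelAt.exists_isBasisAt (hM : IsModelAt A act M) :
    ∃ (ι : Type) (_ : Fintype ι) (b : Basis ι Ω (W → Ω)), IsBasisAt M b := by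
  obtain ⟨ι, hι, b, h1, h2⟩ := hM.exists_basis
  exact ⟨ι, hι, b, h1, h2⟩

variable (h : IsOver A p) (hM : IsModelAt A act M) (hb : IsBasisAt M b)
include h hM hb

omit [AddCommGroup W] [Finite W] hM in
/-- The values of the model are integral. -/
lemma value_mem {f : W → Ω} (hf : f ∈ M) (x : W) : f x ∈ A := by
  have hbx : ∀ i, b i x ∈ A := mem_of_sq_mem_span _ fun i =>
    ⟨fun j => b.repr (b i * b i) j, fun j => (hb.repr_mem _ (M.mul_mem (hb.mem i) (hb.mem i)) j).1, by
      conv_lhs => rw [← Pi.mul_apply, ← b.sum_repr (b i * b i)]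
      simp⟩
  rw [← b.sum_repr f, Finset.sum_apply]
  exact sum_mem fun i _ => mul_mem ((hb.repr_mem f hf i).1) (hbx i)

variable [Module (ZMod p) W]

omit [Finite W] in
/-- **Characters are integral.** -/
theorem repr_chi_mem (η : Dual (ZMod p) W) (i : ι) : b.repr (chi η) i ∈ A := by
  refine mem_of_sq_mem_span (fun j => b.repr (chi η) j) (fun j => ?_) i
  refine ⟨fun l => convol (b.coord j) (b.coord j) (b l), fun l => ?_, ?_⟩
  · obtain ⟨n, a, c, ha, hc, e⟩ := hM.comul _ (hb.mem l)
    beta_reduce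
    rw [convol_sum a c e]
    exact sum_mem fun m _ => mul_mem ((hb.repr_mem _ (ha m) j).1) ((hb.repr_mem _ (hc m) j).1)
  · have e := convol_chi (b.coord j) (b.coord j) η
    simp only [Basis.coord_apply] at e
    rw [← e]
    conv_lhs => rw [← b.sum_repr (chi η), map_sum]
    simp [mul_comm]

/-- **Distinct points differ at depth at most `1 / (p - 1)`.** -/
theorem eq_of_forall_near {x y : W} {γ : ℚ} (hγ : rootGap p < γ)
    (hn : ∀ i, Near A p γ (b i x - b i y)) : x = y := by
  by_contra hxy
  obtain ⟨η, hη⟩ := exists_dual_ne (p := p) hxy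
  refine hη (eq_of_near_mu h hγ ?_)
  have e : mu p (η x) - mu p (η y) = ∑ i, b.repr (chi η) i * (b i x - b i y) := by
    rw [← chi_apply, ← chi_apply]
    conv_lhs => rw [← b.sum_repr (chi η)]
    simp [Finset.sum_apply, mul_sub]
  rw [e]
  exact h.near_sum _ _ fun i _ => h.near_mul_left (repr_chi_mem h hM hb η i) (hn i)

omit hM in
lemma intNearAt_apply {c : ℚ} {T : Dual (ZMod p) W → Ω} (hT : IntNear A b c T) {f : W → Ω}
    (hf : f ∈ M) : Near A p c (ofT T f) := by
  rw [← b.sum_repr f, map_sum]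
  refine h.near_sum _ _ fun i _ => ?_
  rw [map_smul, smul_eq_mul]
  exact h.near_mul_left ((hb.repr_mem f hf i).1) (hT i)

omit [Fintype ι] h hM hb in
lemma intNearAt_mono {c c' : ℚ} {T : Dual (ZMod p) W → Ω} (hT : IntNear A b c T) (hc : c' ≤ c) :
    IntNear A b c' T := fun i => (hT i).mono hc

lemma intNearAt_value {c : ℚ} {T : Dual (ZMod p) W → Ω} (hT : IntNear A b c T)
    (η : Dual (ZMod p) W) : Near A p c (T η) := by
  rw [← ofT_chi T η, ← b.sum_repr (chi η), map_sum]
  refine h.near_sum _ _ fun i _ => ?_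
  rw [map_smul, smul_eq_mul]
  exact h.near_mul_left (repr_chi_mem h hM hb η i) (hT i)

lemma intNearAt_mul {c d : ℚ} {T T' : Dual (ZMod p) W → Ω} (hT : IntNear A b c T)
    (hT' : IntNear A b d T') : IntNear A b (c + d) (T * T') := fun i => by
  obtain ⟨n, a, e, ha, he, hsum⟩ := hM.comul _ (hb.mem i)
  rw [ofT_mul, convol_sum a e hsum]
  exact h.near_sum _ _ fun j _ =>
    h.near_mul (intNearAt_apply h hb hT (ha j)) (intNearAt_apply h hb hT' (he j))

omit hM in
lemma intNearAt_pointT (x : W) : IntNear A b 0 (pointT (p := p) x) := fun i => by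
  rw [ofT_pointT]; exact h.near_of_mem (value_mem h hb (hb.mem i) x)

omit hM in
lemma intNearAt_one : IntNear A b 0 (1 : Dual (ZMod p) W → Ω) := by
  rw [← pointT_zero]; exact intNearAt_pointT h hb 0

lemma intNearAt_pow {c : ℚ} {T : Dual (ZMod p) W → Ω} (hT : IntNear A b c T) (n : ℕ) :
    IntNear A b (n * c) (T ^ n) := by
  induction n with
  | zero => rw [pow_zero, Nat.cast_zero, zero_mul]; exact intNearAt_one h hb
  | succ n ih =>
    rw [pow_succ, Nat.cast_succ, add_mul, one_mul]
    exact intNearAt_mul h hM hb ih hT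

/-- One step of Newton's iteration. -/
lemma newton_step {γ δ : ℚ} (hγ : (p : ℚ) / (p - 1) < γ) (hδ : γ ≤ δ)
    {S T : Dual (ZMod p) W → Ω} (hT : IntNear A b (γ - 1) (T - 1))
    (he : IntNear A b δ (T ^ p - S)) :
    ∃ T' : Dual (ZMod p) W → Ω, IntNear A b (γ - 1) (T' - 1) ∧
      IntNear A b (δ + min (γ - 1) (((p : ℚ) - 1) * γ - p)) (T' ^ p - S) := by
  have hp : p.Prime := Fact.out
  have hpQ : (2 : ℚ) ≤ p := by exact_mod_cast hp.two_le
  have hgap := rootGap_pos (p := p)
  have hγ1 : 0 < γ - 1 := by rw [← rootGap_add_one] at hγ; linarith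
  set η₀ := min (γ - 1) (((p : ℚ) - 1) * γ - p) with hη₀
  have hη1 : η₀ ≤ γ - 1 := min_le_left _ _
  have hη2 : η₀ ≤ ((p : ℚ) - 1) * γ - p := min_le_right _ _
  set e := T ^ p - S with he'
  set d : Dual (ZMod p) W → Ω := (-(p : Ω)⁻¹) • e with hd'
  have hd : IntNear A b (δ - 1) d := by
    rw [show δ - 1 = -1 + δ by ring]
    refine IntNear.smul h (Or.inr ?_) he
    rw [h.ord_neg, h.ord_inv h.natCast_ne_zero, h.ord_p]
  have hT0 : IntNear A b 0 T := by
    have := (intNearAt_mono hT hγ1.le).add h (intNearAt_one h hb)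
    rwa [sub_add_cancel] at this
  have hTn : ∀ n : ℕ, IntNear A b 0 (T ^ n) := fun n => by
    simpa using intNearAt_pow h hM hb hT0 n
  refine ⟨T + d, ?_, ?_⟩
  · rw [add_sub_right_comm]
    exact hT.add h (intNearAt_mono hd (by linarith))
  obtain ⟨q, hq⟩ : ∃ q, p = q + 1 := ⟨p - 1, by have := hp.one_le; omega⟩
  have hq1 : IntNear A b (γ - 1) (T ^ q - 1) := by
    rw [← geom_sum_mul, show γ - 1 = 0 + (γ - 1) by ring]
    exact intNearAt_mul h hM hb (IntNear.sum h _ _ fun n _ => hTn n) hT
  have hmain : (T + d) ^ p - S = (1 - T ^ q) * e +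
      ∑ i ∈ Finset.range q, T ^ i * d ^ (p - i) * (p.choose i : Dual (ZMod p) W → Ω) := by
    have e1 : (p.choose q : Dual (ZMod p) W → Ω) * d = -e := by
      rw [show p.choose q = p by rw [hq, Nat.choose_succ_self_right]]
      funext η
      simp only [d, Pi.mul_apply, Pi.natCast_apply, Pi.smul_apply, smul_eq_mul, Pi.neg_apply]
      field_simp [h.natCast_ne_zero]
    rw [add_pow, show Finset.range (p + 1) = Finset.range (q + 1 + 1) by rw [hq],
      Finset.sum_range_succ, Finset.sum_range_succ, ← hq, Nat.sub_self, pow_zero, mul_one,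
      Nat.choose_self, Nat.cast_one, mul_one, show p - q = 1 by omega, pow_one]
    linear_combination T ^ q * e1 - he'
  rw [hmain]
  refine IntNear.add h ?_ (IntNear.sum h _ _ fun i hi => ?_)
  · refine intNearAt_mono (intNearAt_mul h hM hb (c := γ - 1) (d := δ) ?_ he) (by linarith)
    intro j
    rw [show (1 : Dual (ZMod p) W → Ω) - T ^ q = 0 - (T ^ q - 1) by ring, ofT_sub,
      ofT_zero, zero_sub, LinearMap.neg_apply]
    exact h.near_neg (hq1 j)
  · rw [Finset.mem_range] at hi
    have hC : ∀ n : ℕ, (n : Dual (ZMod p) W → Ω) = (n : Ω) • 1 := fun n => by funext η; simp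
    rw [hC, mul_smul_comm, mul_one]
    have hprod := intNearAt_mul h hM hb (hTn i) (intNearAt_pow h hM hb hd (p - i))
    rcases Nat.eq_zero_or_pos i with rfl | hi0
    · rw [Nat.choose_zero_right, Nat.cast_one, one_smul]
      refine intNearAt_mono hprod ?_
      rw [Nat.sub_zero, zero_add]
      have := mul_le_mul_of_nonneg_left hδ (by linarith : (0 : ℚ) ≤ (p : ℚ) - 1)
      linarith
    · have hCp : Near A p 1 ((p.choose i : ℕ) : Ω) := by
        obtain ⟨c, hc⟩ := hp.dvd_choose_self hi0.ne' (by omega)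
        rw [hc, Nat.cast_mul]
        exact h.near_mul_right (Or.inr h.ord_p.ge) (natCast_mem A c)
      refine intNearAt_mono (IntNear.smul h hCp hprod) ?_
      have h2i : (2 : ℚ) ≤ ((p - i : ℕ) : ℚ) := by exact_mod_cast (show 2 ≤ p - i by omega)
      have h3 := mul_le_mul_of_nonneg_right h2i (by linarith : (0 : ℚ) ≤ δ - 1)
      linarith

/-- **A `p`-th root of an element close to `1` is close to `1` in the lattice.** -/
theorem intNearAt_of_pow {γ : ℚ} (hγ : (p : ℚ) / (p - 1) < γ) {T : Dual (ZMod p) W → Ω}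
    (hS : IntNear A b γ (T ^ p - 1)) (hval : ∀ η, Near A p (γ - 1) (T η - 1)) :
    IntNear A b (γ - 1) (T - 1) := by
  have hp : p.Prime := Fact.out
  have hpQ : (2 : ℚ) ≤ p := by exact_mod_cast hp.two_le
  have hgap := rootGap_pos (p := p)
  have hγg : rootGap p < γ - 1 := by rw [← rootGap_add_one] at hγ; linarith
  set η₀ := min (γ - 1) (((p : ℚ) - 1) * γ - p) with hη₀
  have hη0 : 0 < η₀ := by
    refine lt_min (by linarith) ?_
    rw [div_lt_iff₀ (by linarith)] at hγ
    linarith
  have hseq : ∀ n : ℕ, ∃ Tn : Dual (ZMod p) W → Ω, IntNear A b (γ - 1) (Tn - 1) ∧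
      IntNear A b (γ + n * η₀) (Tn ^ p - T ^ p) := by
    intro n
    induction n with
    | zero =>
      refine ⟨1, fun i => ?_, ?_⟩
      · rw [sub_self, ofT_zero]; exact near_zero _
      · rw [Nat.cast_zero, zero_mul, add_zero, one_pow]
        intro i
        rw [ofT_sub, LinearMap.sub_apply]
        have := h.near_neg (hS i)
        rwa [ofT_sub, LinearMap.sub_apply, neg_sub] at this
    | succ n ih =>
      obtain ⟨Tn, h1, h2⟩ := ih
      have hn : (0 : ℚ) ≤ n * η₀ := mul_nonneg (Nat.cast_nonneg n) hη0.le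
      obtain ⟨T', h1', h2'⟩ := newton_step h hM hb hγ (by linarith) h1 h2
      refine ⟨T', h1', intNearAt_mono h2' ?_⟩
      push_cast
      linarith
  -- bound on the coefficients of the basis in characters
  have : Module.Finite (ZMod p) W := Module.Finite.of_finite
  have : Finite (Dual (ZMod p) W) := Module.finite_of_finite (ZMod p)
  have : Fintype (Dual (ZMod p) W) := Fintype.ofFinite _
  set C : ℚ := ∑ i, ∑ η, |ord A p ((charBasis p W).repr (b i) η)| with hC
  have hcoef : ∀ i η, Near A p (-C) ((charBasis p W).repr (b i) η) := fun i η => by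
    refine Or.inr (le_trans (neg_le_neg ?_) (neg_abs_le _))
    refine le_trans ?_ (Finset.single_le_sum (f := fun j => ∑ η, |ord A p
      ((charBasis p W).repr (b j) η)|) (fun j _ => Finset.sum_nonneg fun _ _ => abs_nonneg _)
      (Finset.mem_univ i))
    exact Finset.single_le_sum (f := fun η => |ord A p ((charBasis p W).repr (b i) η)|)
      (fun η _ => abs_nonneg _) (Finset.mem_univ η)
  obtain ⟨n, hn⟩ := exists_nat_ge (C / η₀)
  rw [div_le_iff₀ hη0] at hn
  obtain ⟨Tn, h1, h2⟩ := hseq n
  have hn0 : (0 : ℚ) ≤ n * η₀ := mul_nonneg (Nat.cast_nonneg n) hη0.le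
  have hclose : ∀ η, Near A p (γ + n * η₀ - 1) (Tn η - T η) := fun η => by
    obtain ⟨hu, hu0⟩ := h.ord_add_eq one_ne_zero (hval η) (by rw [h.ord_one]; linarith)
    rw [add_sub_cancel] at hu hu0
    rw [h.ord_one] at hu0
    have hpow : Near A p (γ + n * η₀) (Tn η ^ p - T η ^ p) := by
      have := intNearAt_value h hM hb h2 η
      simpa using this
    obtain ⟨x, hx⟩ := exists_near_root h hu hu0 (by linarith) hpow
    have h0 : x = 0 := by
      refine eq_of_near_mu h (γ := γ - 1) hγg ?_
      have hd : Near A p (γ - 1) ((mu p x - mu p (0 : ZMod p)) * T η) := by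
        have h3 := h.near_sub (h.near_sub (by simpa using intNearAt_value h hM hb h1 η) (hval η))
          (hx.mono (by linarith))
        rw [show Tn η - 1 - (T η - 1) - (Tn η - mu p x * T η) =
          (mu p x - mu p (0 : ZMod p)) * T η by rw [mu_zero]; ring] at h3
        exact h3
      rcases hd with hd | hd
      · exact Or.inl ((mul_eq_zero.mp hd).resolve_right hu)
      · rcases eq_or_ne (mu p x - mu p (0 : ZMod p)) 0 with e | e
        · exact Or.inl e
        · rw [h.ord_mul e hu, hu0, add_zero] at hd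
          exact Or.inr hd
    rw [h0, mu_zero, one_mul] at hx
    exact hx
  have hdiff : IntNear A b (γ - 1) (T - Tn) := fun i => by
    rw [← (charBasis p W).sum_repr (b i), map_sum]
    refine h.near_sum _ _ fun η _ => ?_
    rw [map_smul, smul_eq_mul, charBasis_apply, ofT_chi]
    refine (h.near_mul (hcoef i η) (h.near_sub_comm (hclose η))).mono ?_
    linarith
  have := hdiff.add h h1
  rwa [sub_add_sub_cancel] at this

end Fermat.Agent.General.Flat

end
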