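import Fermat.Agent.General.Flat.Defs

/-!
# Operations on models

Models at a place pass to submodules of products and to equivariant quotients.
-/

set_option autoImplicit false

noncomputable section

namespace Fermat.Agent.General.Flat

open Fermat.Agent.FlatJ0 Fermat.Agent.GalCoh.Descent Module

local notation "Ω" => AlgebraicClosure ℚ
local notation "G_ℚ" => (AlgebraicClosure ℚ) ≃ₐ[ℚ] (AlgebraicClosure ℚ)

variable {A : ValuationSubring Ω} {W W' : Type} [AddCommGroup W] [AddCommGroup W']

/-- A normalised basis of a subspace: unit vectors on some coordinates, integral entries. -/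
theorem exists_echelon (A : ValuationSubring Ω) {ι : Type} [Fintype ι]
    (U : Submodule Ω (ι → Ω)) : ∃ (s : Finset ι) (v : ι → ι → Ω),
      (∀ j ∈ s, v j ∈ U ∧ (∀ i, v j i ∈ A) ∧ v j j = 1 ∧ ∀ i ∈ s, i ≠ j → v j i = 0) ∧
      ∀ u ∈ U, u = ∑ j ∈ s, u j • v j := by
  classical
  generalize hd : finrank Ω U = d
  induction d using Nat.strong_induction_on generalizing U with | _ d ih =>
  by_cases hU : U = ⊥
  · exact ⟨∅, 0, by simp, fun u hu => by simpa [hU] using hu⟩
  obtain ⟨u₀, hu₀, hne⟩ := U.exists_mem_ne_zero_of_ne_bot hU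
  obtain ⟨j₀, hj₀⟩ : ∃ i, u₀ i ≠ 0 := by
    by_contra! hz
    exact hne (funext hz)
  obtain ⟨i₀, -, hmax⟩ := (Finset.univ : Finset ι).exists_max_image
    (fun i => A.valuation (u₀ i)) ⟨j₀, Finset.mem_univ _⟩
  have hi₀ : u₀ i₀ ≠ 0 := fun e => hj₀ (by
    have := hmax j₀ (Finset.mem_univ _)
    simp only [e, map_zero, nonpos_iff_eq_zero, map_eq_zero] at this
    exact this)
  set u := (u₀ i₀)⁻¹ • u₀ with hu
  have huA : ∀ i, u i ∈ A := fun i => by
    rw [← A.valuation_le_one_iff, hu, Pi.smul_apply, smul_eq_mul, ← div_eq_inv_mul, map_div₀,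
      div_le_one₀ ((Valuation.pos_iff _).mpr hi₀)]
    exact hmax i (Finset.mem_univ _)
  have hu1 : u i₀ = 1 := by simp [hu, inv_mul_cancel₀ hi₀]
  have huU : u ∈ U := U.smul_mem _ hu₀
  set U₁ := U ⊓ LinearMap.ker (LinearMap.proj i₀ : (ι → Ω) →ₗ[Ω] Ω)
  have hlt : finrank Ω U₁ < d := hd ▸ Submodule.finrank_lt_finrank_of_lt
    (lt_of_le_of_ne inf_le_left fun e => one_ne_zero (α := Ω) (by
      have : u ∈ U₁ := e ▸ huU
      rw [← hu1]; exact this.2))
  obtain ⟨s, v, hv, hspan⟩ := ih _ hlt U₁ rfl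
  have hv0 : ∀ j ∈ s, v j i₀ = 0 := fun j hj => (hv j hj).1.2
  have hi₀s : i₀ ∉ s := fun h => one_ne_zero (α := Ω) ((hv i₀ h).2.2.1 ▸ hv0 i₀ h)
  have heval : ∀ x : ι → Ω, ∀ i ∈ s, (∑ j ∈ s, x j • v j) i = x i := fun x i hi => by
    rw [Finset.sum_apply, Finset.sum_eq_single i]
    · rw [Pi.smul_apply, smul_eq_mul, (hv i hi).2.2.1, mul_one]
    · intro j hj hji
      rw [Pi.smul_apply, smul_eq_mul, (hv j hj).2.2.2 i hi hji.symm, mul_zero]
    · exact fun h => absurd hi h
  set w := u - ∑ j ∈ s, u j • v j with hw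
  have hwU : w ∈ U := U.sub_mem huU (U.sum_mem fun j hj => U.smul_mem _ (hv j hj).1.1)
  have hw1 : w i₀ = 1 := by
    rw [hw, Pi.sub_apply, hu1, Finset.sum_apply, Finset.sum_eq_zero (fun j hj => by
      rw [Pi.smul_apply, hv0 j hj, smul_zero]), sub_zero]
  have hws : ∀ i ∈ s, w i = 0 := fun i hi => by rw [hw, Pi.sub_apply, heval u i hi, sub_self]
  have hwA : ∀ i, w i ∈ A := fun i => by
    rw [hw, Pi.sub_apply, Finset.sum_apply]
    exact sub_mem (huA i) (sum_mem fun j hj => mul_mem (huA j) ((hv j hj).2.1 i))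
  refine ⟨insert i₀ s, Function.update v i₀ w, fun j hj => ?_, fun x hx => ?_⟩
  · rcases Finset.mem_insert.mp hj with rfl | hj
    · rw [Function.update_self]
      refine ⟨hwU, hwA, hw1, fun i hi hne => ?_⟩
      exact hws i ((Finset.mem_insert.mp hi).resolve_left hne)
    · have hne : j ≠ i₀ := fun e => hi₀s (e ▸ hj)
      rw [Function.update_of_ne hne]
      refine ⟨(hv j hj).1.1, (hv j hj).2.1, (hv j hj).2.2.1, fun i hi hij => ?_⟩
      rcases Finset.mem_insert.mp hi with hi | hi
      exacts [hi ▸ hv0 j hj, (hv j hj).2.2.2 i hi hij]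
  · have hx₁ : x - x i₀ • w ∈ U₁ :=
      ⟨U.sub_mem hx (U.smul_mem _ hwU), by
        show (x - x i₀ • w) i₀ = 0
        simp [hw1]⟩
    have h := hspan _ hx₁
    rw [Finset.sum_insert hi₀s, Function.update_self,
      Finset.sum_congr rfl (g := fun j => (x - x i₀ • w) j • v j) fun j hj => by
        rw [Function.update_of_ne (ne_of_mem_of_not_mem hj hi₀s), Pi.sub_apply, Pi.smul_apply,
          hws j hj, smul_zero, sub_zero], ← h]
    abel

variable {act : A.decompositionSubgroup ℚ → W → W} {M : Subalgebra ↥(localRing A) (W → Ω)}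

/-- The action of a model is bijective. -/
theorem IsModelAt.surjective [Finite W] (hM : IsModelAt A act M)
    (σ : A.decompositionSubgroup ℚ) : Function.Surjective (act σ) :=
  Finite.injective_iff_surjective.mp fun x y e => hM.sep x y fun f hf =>
    (σ : G_ℚ).injective (by rw [← hM.equiv f hf, ← hM.equiv f hf, e])

/-- The functions of a model span all functions. -/
theorem IsModelAt.span_eq_top [Finite W] (hM : IsModelAt A act M) :
    Submodule.span Ω (M : Set (W → Ω)) = ⊤ := by
  classical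
  have := Fintype.ofFinite W
  set S := Submodule.span Ω (M : Set (W → Ω))
  have hone : (1 : W → Ω) ∈ S := Submodule.subset_span M.one_mem
  have hmul : ∀ f ∈ S, ∀ g ∈ S, f * g ∈ S := by
    intro f hf g hg
    have := Submodule.mul_mem_mul hf hg
    rw [Submodule.span_mul_span] at this
    exact Submodule.span_mono (Set.mul_subset_iff.mpr fun _ ha _ hb => M.mul_mem ha hb) this
  have hδ : ∀ x : W, (Pi.single x 1 : W → Ω) ∈ S := fun x => by
    have key : ∀ t : Finset W, x ∉ t → ∃ f ∈ S, f x = 1 ∧ ∀ y ∈ t, f y = 0 := by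
      intro t
      induction t using Finset.induction_on with
      | empty => exact fun _ => ⟨1, hone, rfl, by simp⟩
      | insert y t hy ih =>
        intro hx
        rw [Finset.mem_insert, not_or] at hx
        obtain ⟨f, hf, hfx, hft⟩ := ih hx.2
        obtain ⟨g, hg, hgxy⟩ : ∃ g ∈ M, g x ≠ g y := by
          by_contra! hcon
          exact hx.1 (hM.sep x y hcon)
        refine ⟨f * ((g x - g y)⁻¹ • (g - g y • (1 : W → Ω))), hmul _ hf _
          (S.smul_mem _ (S.sub_mem (Submodule.subset_span hg) (S.smul_mem _ hone))), ?_, ?_⟩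
        · simp [hfx, inv_mul_cancel₀ (sub_ne_zero.mpr hgxy)]
        · intro z hz
          rcases Finset.mem_insert.mp hz with rfl | hz
          · simp
          · simp [hft z hz]
    obtain ⟨f, hf, hfx, hft⟩ := key (Finset.univ.erase x) (Finset.notMem_erase _ _)
    convert hf using 1
    funext y
    rcases eq_or_ne y x with rfl | hy
    · rw [Pi.single_eq_same, hfx]
    · rw [Pi.single_eq_of_ne hy, hft y (Finset.mem_erase.mpr ⟨hy, Finset.mem_univ y⟩)]
  rw [eq_top_iff]
  intro f _
  rw [← Finset.univ_sum_single f]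
  refine S.sum_mem fun x _ => ?_
  rw [show (Pi.single x (f x) : W → Ω) = f x • Pi.single x 1 by
    funext y; rcases eq_or_ne y x with rfl | hy <;> simp [*]]
  exact S.smul_mem _ (hδ x)

/-- A basis of all functions by functions of the model, in which the coordinates of the model are
integers of the decomposition field. -/
theorem IsModelAt.exists_basis [Finite W] (hM : IsModelAt A act M) :
    ∃ (ι : Type) (_ : Fintype ι) (b : Basis ι Ω (W → Ω)),
      (∀ i, b i ∈ M) ∧ ∀ f ∈ M, ∀ i, b.repr f i ∈ localRing A := by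
  classical
  let Spans : Finset (W → Ω) → Prop := fun t => (↑t ⊆ (M : Set (W → Ω))) ∧
    ∀ f ∈ M, ∃ c : (W → Ω) → Ω, (∀ g ∈ t, c g ∈ A) ∧ f = ∑ g ∈ t, c g • g
  have hex : ∃ n, ∃ t, Spans t ∧ t.card = n := by
    obtain ⟨s, hs⟩ := hM.fg
    refine ⟨s.card, s, ⟨fun g hg => ?_, fun f hf => ?_⟩, rfl⟩
    · exact (Subalgebra.mem_toSubmodule _).mp (hs ▸ Submodule.subset_span hg)
    · have : f ∈ Submodule.span ↥(localRing A) (s : Set (W → Ω)) := hs.symm ▸ hf
      obtain ⟨c, -, hc⟩ := Submodule.mem_span_finset.mp this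
      exact ⟨fun g => (c g : Ω), fun g _ => localRing_mem _, hc.symm⟩
  obtain ⟨t, ⟨htM, htspan⟩, htc⟩ := Nat.find_spec hex
  have hli : LinearIndependent Ω (fun g : t => (g : W → Ω)) := by
    rw [Fintype.linearIndependent_iff]
    intro a ha
    by_contra! hcon
    obtain ⟨j, hj⟩ := hcon
    obtain ⟨g₀, -, hmax⟩ := (Finset.univ : Finset t).exists_max_image
      (fun g => A.valuation (a g)) ⟨j, Finset.mem_univ j⟩
    have hg₀ : a g₀ ≠ 0 := fun e => hj (by
      have := hmax j (Finset.mem_univ j)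
      rw [e, map_zero, nonpos_iff_eq_zero, map_eq_zero] at this
      exact this)
    refine Nat.find_min hex (m := (t.erase g₀).card) (by
      rw [← htc]; exact Finset.card_erase_lt_of_mem g₀.2) ⟨_, ⟨fun g hg => ?_, fun f hf => ?_⟩, rfl⟩
    · exact htM (Finset.mem_of_mem_erase hg)
    · obtain ⟨c, hc, e⟩ := htspan f hf
      let a' : (W → Ω) → Ω := fun g => if hg : g ∈ t then a ⟨g, hg⟩ else 0
      have ha' : ∑ g ∈ t, a' g • g = 0 := by
        rw [← ha, ← Finset.sum_coe_sort t]
        exact Finset.sum_congr rfl fun g _ => by simp [a', g.2]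
      have ha0 : a' g₀ = a g₀ := by simp [a', g₀.2]
      refine ⟨fun g => c g - c g₀ * (a' g / a g₀), fun g hg => ?_, ?_⟩
      · obtain ⟨-, hgt⟩ := Finset.mem_erase.mp hg
        refine sub_mem (hc g hgt) (mul_mem (hc g₀ g₀.2) ?_)
        rw [← A.valuation_le_one_iff, map_div₀, div_le_one₀ ((Valuation.pos_iff _).mpr hg₀)]
        simpa [a', hgt] using hmax ⟨g, hgt⟩ (Finset.mem_univ _)
      · rw [Finset.sum_erase t (a := (g₀ : W → Ω))
          (by beta_reduce; rw [ha0, div_self hg₀, mul_one, sub_self, zero_smul])]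
        simp only [sub_smul, mul_smul, Finset.sum_sub_distrib, ← Finset.smul_sum]
        rw [← e, show ∑ g ∈ t, (a' g / a g₀) • g = (a g₀)⁻¹ • ∑ g ∈ t, a' g • g by
          rw [Finset.smul_sum]
          exact Finset.sum_congr rfl fun g _ => by rw [smul_smul, div_eq_inv_mul], ha', smul_zero,
          smul_zero, sub_zero]
  have hrange : Set.range (fun g : t => (g : W → Ω)) = ↑t := Subtype.range_coe
  have hsp : ⊤ ≤ Submodule.span Ω (Set.range fun g : t => (g : W → Ω)) := by
    rw [hrange, ← hM.span_eq_top, Submodule.span_le]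
    intro f hf
    obtain ⟨c, -, rfl⟩ := htspan f hf
    exact Submodule.sum_mem _ fun g hg => Submodule.smul_mem _ _ (Submodule.subset_span hg)
  set b := Basis.mk hli hsp with hbdef
  have hb : ∀ i, b i ∈ M := fun i => by rw [hbdef, Basis.mk_apply]; exact htM i.2
  refine ⟨t, inferInstance, b, hb, fun f hf i => ⟨?_, fun σ hσ => ?_⟩⟩
  · obtain ⟨c, hc, e⟩ := htspan f hf
    have : f = ∑ g : t, c g • b g := by
      simp only [hbdef, Basis.mk_apply]
      rw [e, ← Finset.sum_coe_sort t]
    rw [this, Basis.repr_sum_self]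
    exact hc i i.2
  · have e : f = ∑ j, σ (b.repr f j) • b j := by
      funext y
      obtain ⟨x, rfl⟩ := hM.surjective ⟨σ, hσ⟩ y
      conv_lhs => rw [hM.equiv f hf, ← b.sum_repr f]
      simp only [Finset.sum_apply, Pi.smul_apply, smul_eq_mul, map_sum, map_mul]
      exact Finset.sum_congr rfl fun j _ => by rw [hM.equiv _ (hb j)]
    conv_rhs => rw [e, Basis.repr_sum_self]

variable (A) in
/-- Pulling back functions over the integers of the decomposition field. -/
def pullbackAt {X Y : Type} (g : X → Y) :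
    (Y → Ω) →ₐ[↥(localRing A)] (X → Ω) :=
  AlgHom.pi fun x => Pi.evalAlgHom _ _ (g x)

theorem pullbackAt_apply {X Y : Type} (g : X → Y) (f : Y → Ω) (x : X) :
    pullbackAt A g f x = f (g x) := rfl

/-- Jointly separating lattices of functions give a model. -/
theorem hasModelAt_of_family {ι : Type} [Finite ι]
    (N : ι → Subalgebra ↥(localRing A) (W → Ω))
    (hfg : ∀ i, (Subalgebra.toSubmodule (N i)).FG) (heq : ∀ i, N i ≤ equivFnsAt act)
    (hcomul : ∀ i, N i ≤ decomposableAt (N i))
    (hsep : ∀ x y, (∀ i, ∀ f ∈ N i, f x = f y) → x = y) : HasModelAt A act := by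
  classical
  have := Fintype.ofFinite ι
  have hle : ∀ i, N i ≤ Finset.univ.sup N := fun i => Finset.le_sup (Finset.mem_univ i)
  refine ⟨Finset.univ.sup N, ⟨?_, fun f hf => (Finset.sup_le (fun i _ => heq i)) hf,
    fun x y hxy => hsep x y fun i f hf => hxy f (hle i hf), fun f hf => ?_⟩⟩
  · refine Finset.sup_induction (p := fun A' => (Subalgebra.toSubmodule A').FG) ?_
      (fun A' hA B hB => ?_) (fun i _ => hfg i)
    · rw [Algebra.toSubmodule_bot, Submodule.one_eq_span]
      exact Submodule.fg_span (Set.finite_singleton 1)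
    · rw [← Subalgebra.mul_toSubmodule]
      exact hA.mul hB
  · have : Finset.univ.sup N ≤ decomposableAt (Finset.univ.sup N) := Finset.sup_le fun i _ g hg => by
      obtain ⟨-, n, a, b, ha, hb, e⟩ := hcomul i hg
      exact ⟨hle i hg, n, a, b, fun j => hle i (ha j), fun j => hle i (hb j), e⟩
    exact (this hf).2

/-- A pulled back model: finiteness, equivariance, comultiplication. -/
theorem IsModelAt.map_pullback {act' : A.decompositionSubgroup ℚ → W' → W'}
    {M : Subalgebra ↥(localRing A) (W' → Ω)} (hM : IsModelAt A act' M) (g : W →+ W')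
    (heq : ∀ σ x, g (act σ x) = act' σ (g x)) :
    (Subalgebra.toSubmodule (M.map (pullbackAt A g))).FG ∧
      M.map (pullbackAt A g) ≤ equivFnsAt act ∧
      M.map (pullbackAt A g) ≤ decomposableAt (M.map (pullbackAt A g)) := by
  refine ⟨?_, ?_, ?_⟩
  · rw [Subalgebra.map_toSubmodule]
    exact hM.fg.map _
  · rintro _ ⟨f, hf, rfl⟩ σ x
    show f (g (act σ x)) = (σ : G_ℚ) (f (g x))
    rw [heq, hM.equiv f hf]
  · rintro _ ⟨f, hf, rfl⟩
    obtain ⟨n, a, b, ha, hb, e⟩ := hM.comul f hf
    exact ⟨⟨f, hf, rfl⟩, n, fun j => pullbackAt A g (a j), fun j => pullbackAt A g (b j),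
      fun j => ⟨_, ha j, rfl⟩, fun j => ⟨_, hb j, rfl⟩,
      fun x y => by simp [pullbackAt_apply, map_add, e]⟩

/-- A submodule of a finite product of modules with models has a model. -/
theorem hasModelAt_of_maps {ι : Type} [Finite ι] {V : ι → Type} [∀ i, AddCommGroup (V i)]
    {actV : ∀ i, A.decompositionSubgroup ℚ → V i → V i} (hmod : ∀ i, HasModelAt A (actV i))
    (g : ∀ i, W →+ V i) (heq : ∀ i σ x, g i (act σ x) = actV i σ (g i x))
    (hinj : ∀ x y, (∀ i, g i x = g i y) → x = y) : HasModelAt A act := by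
  choose M hM using hmod
  refine hasModelAt_of_family (fun i => (M i).map (pullbackAt A (g i)))
    (fun i => ((hM i).map_pullback (g i) (heq i)).1) (fun i => ((hM i).map_pullback (g i) (heq i)).2.1)
    (fun i => ((hM i).map_pullback (g i) (heq i)).2.2) fun x y hxy => hinj x y fun i => ?_
  exact (hM i).sep _ _ fun f hf => hxy i _ ⟨f, hf, rfl⟩

/-- An equivariant quotient of a module with a model has a model. -/
theorem hasModelAt_of_surjective [Finite W] (hact : HasModelAt A act) (g : W →+ W')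
    (hg : Function.Surjective g) {act' : A.decompositionSubgroup ℚ → W' → W'}
    (heq : ∀ σ x, g (act σ x) = act' σ (g x)) : HasModelAt A act' := by
  classical
  obtain ⟨M, hM⟩ := hact
  have : Finite W' := Finite.of_surjective g hg
  obtain ⟨ι, _, b, hb, hrepr⟩ := hM.exists_basis
  let P : (W' → Ω) →ₗ[Ω] (W → Ω) := LinearMap.funLeft Ω Ω g
  let E : (W' → Ω) →ₗ[Ω] (ι → Ω) := (b.equivFun : (W → Ω) →ₗ[Ω] (ι → Ω)) ∘ₗ P
  have hE : Function.Injective E := fun f f' e => funext fun y => by
    obtain ⟨x, rfl⟩ := hg y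
    exact congrFun (b.equivFun.injective e) x
  have hEapply : ∀ f i, E f i = b.repr (fun x => f (g x)) i := fun f i => rfl
  obtain ⟨s, v, hv, hspan⟩ := exists_echelon A (LinearMap.range E)
  have hstab : ∀ σ : A.decompositionSubgroup ℚ, ∀ u ∈ LinearMap.range E,
      (fun i => (σ : G_ℚ) (u i)) ∈ LinearMap.range E := by
    rintro σ _ ⟨f, rfl⟩
    have hsur : Function.Surjective (act' σ) := fun z => by
      obtain ⟨x, rfl⟩ := hg z
      obtain ⟨x₀, rfl⟩ := hM.surjective σ x
      exact ⟨g x₀, (heq σ x₀).symm⟩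
    have hinj : Function.Injective (act' σ) := Finite.injective_iff_surjective.mpr hsur
    refine ⟨fun z => (σ : G_ℚ) (f (Function.surjInv hsur z)), b.equivFun.symm.injective ?_⟩
    rw [LinearMap.comp_apply, LinearEquiv.coe_coe, LinearEquiv.symm_apply_apply]
    funext x
    obtain ⟨x₀, rfl⟩ := hM.surjective σ x
    show (σ : G_ℚ) (f (Function.surjInv hsur (g (act σ x₀)))) = _
    rw [heq, hinj (Function.surjInv_eq hsur (act' σ (g x₀))),
      show f (g x₀) = (∑ i, E f i • b i) x₀ from
        (congrFun (b.sum_equivFun (fun x => f (g x))) x₀).symm, Basis.equivFun_symm_apply]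
    simp only [Finset.sum_apply, Pi.smul_apply, smul_eq_mul, map_sum, map_mul]
    exact Finset.sum_congr rfl fun i _ => by rw [hM.equiv _ (hb i)]
  have hvR : ∀ j ∈ s, ∀ i, v j i ∈ localRing A := fun j hj i => ⟨(hv j hj).2.1 i, fun σ hσ => by
    have h := hspan _ (hstab ⟨σ, hσ⟩ _ (hv j hj).1)
    rw [Finset.sum_eq_single j (fun l hl hlj => by
        show σ (v j l) • v l = 0
        rw [(hv j hj).2.2.2 l hl hlj, map_zero, zero_smul]) fun h' => absurd hj h'] at h
    have h2 := congrFun h i
    show σ (v j i) = v j i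
    simpa [(hv j hj).2.2.1] using h2⟩
  have hpre : ∀ j ∈ s, ∃ f, E f = v j := fun j hj => (hv j hj).1
  choose! F hF using hpre
  let M' := M.comap (pullbackAt A g)
  have hmem : ∀ f, f ∈ M' ↔ (fun x => f (g x)) ∈ M := fun f => Iff.rfl
  have hFM : ∀ j ∈ s, F j ∈ M' := fun j hj => (hmem _).2 (by
    have e : (fun x => F j (g x)) =
        ∑ i, (⟨v j i, hvR j hj i⟩ : ↥(localRing A)) • b i := by
      conv_lhs => rw [← b.sum_equivFun (fun x => F j (g x))]
      exact Finset.sum_congr rfl fun i _ => by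
        show E (F j) i • b i = _
        rw [hF j hj]
        rfl
    rw [e]
    exact M.toSubmodule.sum_mem fun i _ => M.toSubmodule.smul_mem _ (hb i))
  have hdecomp : ∀ f : W' → Ω, f = ∑ j ∈ s, E f j • F j := fun f => hE (by
    rw [map_sum]
    conv_lhs => rw [hspan _ ⟨f, rfl⟩]
    exact Finset.sum_congr rfl fun j hj => by rw [map_smul, hF j hj])
  have hequiv : ∀ f ∈ M', ∀ (σ : A.decompositionSubgroup ℚ) y,
      f (act' σ y) = (σ : G_ℚ) (f y) := fun f hf σ y => by
    obtain ⟨x, rfl⟩ := hg y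
    rw [← heq]
    exact hM.equiv _ ((hmem f).1 hf) σ x
  refine ⟨M', ⟨?_, hequiv, fun x y hxy => ?_, fun f hf => ?_⟩⟩
  · refine ⟨s.image F, le_antisymm (Submodule.span_le.mpr fun f hf => ?_) fun f hf => ?_⟩
    · obtain ⟨j, hj, rfl⟩ := Finset.mem_image.mp hf
      exact hFM j hj
    · rw [hdecomp f]
      refine Submodule.sum_mem _ fun j hj => ?_
      have hr : E f j ∈ localRing A := hrepr _ ((hmem f).1 hf) j
      exact Submodule.smul_mem _ (⟨_, hr⟩ : ↥(localRing A))
        (Submodule.subset_span (Finset.mem_coe.mpr (Finset.mem_image_of_mem F hj)))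
  · by_contra hne
    have h1 := hdecomp (Pi.single x 1)
    have h2 : (Pi.single x 1 : W' → Ω) x = (Pi.single x 1 : W' → Ω) y := by
      rw [h1, Finset.sum_apply, Finset.sum_apply]
      exact Finset.sum_congr rfl fun j hj => by
        rw [Pi.smul_apply, Pi.smul_apply, hxy _ (hFM j hj)]
    rw [Pi.single_eq_same, Pi.single_eq_of_ne (Ne.symm hne)] at h2
    exact one_ne_zero h2
  · let B : ι → W' → Ω := fun j z => E (fun y => f (y + z)) j
    obtain ⟨n, a, c, ha, hc, e⟩ := hM.comul _ ((hmem f).1 hf)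
    have hB : ∀ j, B j ∈ M' := fun j => (hmem _).2 (by
      have : (fun x => B j (g x)) =
          ∑ i, (⟨_, hrepr _ (ha i) j⟩ : ↥(localRing A)) • c i := funext fun y => by
        have e1 : (fun x => f (g x + g y)) = ∑ i, c i y • a i := funext fun x => by
          rw [← map_add, e]
          simp [mul_comm]
        show b.repr (fun x => f (g x + g y)) j = _
        rw [e1, map_sum, Finsupp.finsetSum_apply, Finset.sum_apply]
        exact Finset.sum_congr rfl fun i _ => by
          rw [map_smul, Finsupp.smul_apply, smul_eq_mul, mul_comm]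
          rfl
      rw [this]
      exact M.toSubmodule.sum_mem fun i _ => M.toSubmodule.smul_mem _ (hc i))
    refine ⟨s.card, fun k => F (s.equivFin.symm k), fun k => B (s.equivFin.symm k),
      fun k => hFM _ (s.equivFin.symm k).2, fun k => hB _, fun x y => ?_⟩
    rw [show f (x + y) = (fun z => f (z + y)) x from rfl, hdecomp (fun z => f (z + y)),
      Finset.sum_apply, ← Finset.sum_coe_sort s, ← s.equivFin.symm.sum_comp]
    exact Finset.sum_congr rfl fun k _ => by
      rw [Pi.smul_apply, smul_eq_mul, mul_comm]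

end Fermat.Agent.General.Flat

end
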