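import Fermat.Agent.Engine.TRep.Tame
import Fermat.Agent.Row32.Ops
import Mathlib.RingTheory.Filtration

/-!
# Models of representations over Hecke algebras

Representations over finite quotients of localised Hecke algebras have finite flat models when the
`p`-power torsion of `J₀(N)` has them.
-/

set_option autoImplicit false

noncomputable section

namespace Fermat.Agent.General.Flat

open Fermat.Agent.RowS56 Fermat.Agent.Engine Fermat.Agent.Engine.TRep Fermat.Agent.EigenRep
  Fermat.Agent.DefRing ModularCurve AlgebraicCurve Matrix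

local notation "GQ" => AlgebraicClosure ℚ ≃ₐ[ℚ] AlgebraicClosure ℚ
local notation "Jtors" N:max n:max => Pic0.torsion (AlgebraicClosure ℚ) (modularFunctionFieldBar N) n

/-- The Galois action on the torsion of `J₀(N)`. -/
def torsAct (N n : ℕ) : GQ →* AddMonoid.End (Jtors N n) where
  toFun σ := AddMonoidHom.mk' (fun x => JZero.torsionGaloisRep N n σ x) fun x y => map_add _ x y
  map_one' := AddMonoidHom.ext fun x => Subtype.ext <| by
    show ((JZero.torsionGaloisRep N n 1 x : Jtors N n) : JZero N) = (x : JZero N)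
    rw [JZero.coe_torsionGaloisRep_apply, one_smul]
  map_mul' σ τ := AddMonoidHom.ext fun x => Subtype.ext <| by
    show ((JZero.torsionGaloisRep N n (σ * τ) x : Jtors N n) : JZero N) =
      ((JZero.torsionGaloisRep N n σ (JZero.torsionGaloisRep N n τ x) : Jtors N n) : JZero N)
    rw [JZero.coe_torsionGaloisRep_apply, JZero.coe_torsionGaloisRep_apply,
      JZero.coe_torsionGaloisRep_apply, mul_smul]

/-- All `p`-power torsion of `J₀(N)` has finite flat models. -/
def HasTorsionModels (N p : ℕ) : Prop :=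
  ∀ k : ℕ, ∃ M, IsModel p (torsAct N (p ^ k)) M

/-- The action of matrices on vectors. -/
def vecAct {B : Type} [CommRing B] (ρ : MRep B) : GQ →* AddMonoid.End (Fin 2 → B) where
  toFun σ := (Matrix.mulVecLin (ρ σ)).toAddMonoidHom
  map_one' := AddMonoidHom.ext fun v =>
    show ρ 1 *ᵥ v = v by rw [map_one, Matrix.one_mulVec]
  map_mul' σ τ := AddMonoidHom.ext fun v =>
    show ρ (σ * τ) *ᵥ v = ρ σ *ᵥ (ρ τ *ᵥ v) by rw [map_mul, Matrix.mulVec_mulVec]

theorem vecAct_apply {B : Type} [CommRing B] (ρ : MRep B) (σ : GQ) (v : Fin 2 → B) :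
    vecAct ρ σ v = ρ σ *ᵥ v := rfl

variable {N p : ℕ} [NeZero N] [Fact p.Prime] {I : RepInputs N p} {O : Type} [CommRing O]
  {ι : ℤ_[p] →+* O} {S : Finset ℕ} {m : Ideal (HeckeModule.AwayPoly O (↑S : Set ℕ))} [m.IsPrime]
  {R : MRep (TLoc I ι S m)} {B : Type} [CommRing B]

/-- Formal combinations of Galois elements as matrices on the lattice. -/
def latComb (I : RepInputs N p) :
    (GQ →₀ ℤ_[p]) →ₗ[ℤ_[p]] Matrix (Fin I.model.d) (Fin I.model.d) ℤ_[p] :=
  Finsupp.linearCombination ℤ_[p] (galMat I.model)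

/-- Formal combinations of Galois elements through the representation. -/
def repComb (R : MRep (TLoc I ι S m)) (f : TLoc I ι S m →+* B) :
    (GQ →₀ ℤ_[p]) →+ Matrix (Fin 2) (Fin 2) B :=
  Finsupp.liftAddHom fun g => f.mapMatrix.toAddMonoidHom.comp
    (((smulAddHom (TLoc I ι S m) (Matrix (Fin 2) (Fin 2) (TLoc I ι S m))).flip (R g)).comp
      (tInt I ι S m).toAddMonoidHom)

theorem repComb_single (f : TLoc I ι S m →+* B) (g : GQ) (a : ℤ_[p]) :
    repComb R f (Finsupp.single g a) = f.mapMatrix (tInt I ι S m a • R g) := by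
  simp [repComb]

/-- An exact relation on the lattice holds in the representation. -/
theorem repComb_eq_zero (hR : IsTorsionRep I ι S m R) (f : TLoc I ι S m →+* B)
    {z : GQ →₀ ℤ_[p]} (hz : latComb I z = 0) : repComb R f z = 0 := by
  classical
  let e := z.support.equivFin.symm
  have h1 : ∀ {A : Type} [AddCommMonoid A] (F : GQ → A),
      ∑ g ∈ z.support, F g = ∑ i, F (e i).1 := fun F => by
    rw [← Finset.sum_coe_sort, ← e.sum_comp]
  have key := hR.transfer_exact (fun i => z (e i).1) (fun i => (e i).1) fun n => by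
    rw [latComb, Finsupp.linearCombination_apply, Finsupp.sum, h1] at hz
    rw [hz, map_zero]
  conv_lhs => rw [← z.sum_single]
  rw [Finsupp.sum, map_sum, h1]
  simp only [repComb_single]
  rw [← map_sum, key, map_zero]

/-- A relation modulo a high power of `p` holds modulo a given power of `p`. -/
theorem exists_level_kills (hR : IsTorsionRep I ι S m R) (f : TLoc I ι S m →+* B) {n : ℕ}
    (hn : (p : B) ^ n = 0) :
    ∃ k, ∀ z : GQ →₀ ℤ_[p], matMod p I.model.d k (latComb I z) = 0 → repComb R f z = 0 := by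
  set L := LinearMap.range (latComb I) with hL
  obtain ⟨c, hc⟩ := (Ideal.span {(p : ℤ_[p])}).exists_pow_inf_eq_pow_smul L
  refine ⟨n + c, fun z hz => ?_⟩
  have hdvd : ∀ i j, ∃ y, latComb I z i j = (p : ℤ_[p]) ^ (n + c) * y := fun i j => by
    have h := congrFun (congrFun hz i) j
    rw [matMod_apply, Matrix.zero_apply, ← RingHom.mem_ker, PadicInt.ker_toZModPow,
      Ideal.mem_span_singleton] at h
    exact h
  choose y hy using hdvd
  have hmem : latComb I z ∈ Ideal.span {(p : ℤ_[p])} ^ (n + c) • ⊤ ⊓ L := by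
    refine ⟨?_, LinearMap.mem_range_self _ z⟩
    rw [Ideal.span_singleton_pow, show latComb I z = (p : ℤ_[p]) ^ (n + c) • Matrix.of y from
      Matrix.ext fun i j => by simpa using hy i j]
    exact Submodule.smul_mem_smul (Ideal.mem_span_singleton_self _) Submodule.mem_top
  rw [hc (n + c) le_add_self, Nat.add_sub_cancel, Ideal.span_singleton_pow] at hmem
  have hmem' := Submodule.smul_mono le_rfl inf_le_right hmem
  rw [Submodule.ideal_span_singleton_smul, Submodule.mem_smul_pointwise_iff_exists] at hmem'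
  obtain ⟨_, ⟨w, rfl⟩, hw⟩ := hmem'
  have h0 := repComb_eq_zero hR f (z := z - p ^ n • w) (by
    rw [map_sub, map_nsmul, ← hw, ← Nat.cast_smul_eq_nsmul ℤ_[p], Nat.cast_pow, sub_self])
  rw [map_sub, map_nsmul, sub_eq_zero] at h0
  rw [h0]
  ext i j
  rw [Matrix.smul_apply, nsmul_eq_mul, Nat.cast_pow, hn, zero_mul, Matrix.zero_apply]

/-- **A finite quotient of the representation has a model.** -/
theorem exists_isModel_mapRep (hR : IsTorsionRep I ι S m R) (hJ : HasTorsionModels N p)
    [Finite B] (f : TLoc I ι S m →+* B) {n : ℕ} (hn : (p : B) ^ n = 0) :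
    ∃ M, IsModel p (vecAct (mapRep f R)) M := by
  classical
  obtain ⟨k, hk⟩ := exists_level_kills hR f hn
  have : NeZero (p ^ k) := ⟨pow_ne_zero k (Fact.out : p.Prime).ne_zero⟩
  have : Finite (Jtors N (p ^ k)) := Finite.of_equiv _ (I.model.e k).symm.toEquiv
  let Φ : (GQ →₀ ℤ_[p]) →+ Matrix (Fin I.model.d) (Fin I.model.d) (ZMod (p ^ k)) :=
    (matMod p I.model.d k).toAddMonoidHom.comp (latComb I).toAddMonoidHom
  have hΦ1 : ∀ g a, Φ (Finsupp.single g a) =
      matMod p I.model.d k (a • galMat I.model g) := fun g a => by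
    show matMod p I.model.d k (latComb I (Finsupp.single g a)) = _
    rw [latComb, Finsupp.linearCombination_single]
  let shift : GQ → (GQ →₀ ℤ_[p]) →+ (GQ →₀ ℤ_[p]) := fun σ =>
    Finsupp.mapDomain.addMonoidHom (σ * ·)
  have hshift : ∀ σ z, Φ (shift σ z) = levelMat I.model k σ * Φ z := fun σ z => by
    refine DFunLike.congr_fun (f := Φ.comp (shift σ))
      (g := (AddMonoidHom.mulLeft (levelMat I.model k σ)).comp Φ)
      (Finsupp.addHom_ext fun g a => ?_) z
    simp only [AddMonoidHom.comp_apply, shift, Finsupp.mapDomain.addMonoidHom_apply,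
      Finsupp.mapDomain_single, hΦ1, AddMonoidHom.coe_mulLeft]
    rw [← matMod_galMat, ← map_mul, map_mul (galMat I.model), mul_smul_comm]
  have hshift' : ∀ σ z, repComb R f (shift σ z) = mapRep f R σ * repComb R f z := fun σ z => by
    refine DFunLike.congr_fun (f := (repComb R f).comp (shift σ))
      (g := (AddMonoidHom.mulLeft (mapRep f R σ)).comp (repComb R f))
      (Finsupp.addHom_ext fun g a => ?_) z
    simp only [AddMonoidHom.comp_apply, shift, Finsupp.mapDomain.addMonoidHom_apply,
      Finsupp.mapDomain_single, repComb_single, AddMonoidHom.coe_mulLeft]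
    rw [map_mul R, ← Matrix.mul_smul, map_mul]
    rfl
  -- the image of the combinations, with left multiplication
  let W := Φ.range
  have hstab : ∀ σ : GQ, ∀ X ∈ W, levelMat I.model k σ * X ∈ W := by
    rintro σ _ ⟨z, rfl⟩
    exact ⟨shift σ z, hshift σ z⟩
  choose s hs using fun X : W => X.2
  have hΨ : ∀ z (X : W), Φ z = X → repComb R f (s X) = repComb R f z := fun z X h => by
    rw [← sub_eq_zero, ← map_sub]
    exact hk _ (show Φ (s X - z) = 0 by rw [map_sub, hs, h, sub_self])
  let θ : W →+ Matrix (Fin 2) (Fin 2) B :=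
    AddMonoidHom.mk' (fun X => repComb R f (s X)) fun X Y => by
      rw [← map_add]
      exact hΨ _ _ (by rw [map_add, hs, hs]; rfl)
  have hθ : ∀ σ (X : W), θ ⟨_, hstab σ X X.2⟩ = mapRep f R σ * θ X := fun σ X => by
    show repComb R f (s _) = _ * repComb R f (s X)
    rw [← hshift']
    exact hΨ _ _ (by rw [hshift, hs])
  let actW : GQ →* AddMonoid.End ((Fin 2 → B) → W) :=
    { toFun := fun σ => AddMonoidHom.mk' (fun X v => ⟨_, hstab σ (X v) (X v).2⟩) fun X Y =>
        funext fun v => Subtype.ext (mul_add _ _ _)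
      map_one' := AddMonoidHom.ext fun X => funext fun v => Subtype.ext
        (show levelMat I.model k 1 * (X v).1 = (X v).1 by rw [map_one, one_mul])
      map_mul' := fun σ τ => AddMonoidHom.ext fun X => funext fun v => Subtype.ext
        (show levelMat I.model k (σ * τ) * (X v).1 =
          levelMat I.model k σ * (levelMat I.model k τ * (X v).1) by rw [map_mul, mul_assoc]) }
  let col : (Fin 2 → B) × Fin I.model.d → ((Fin 2 → B) → W) →+ Jtors N (p ^ k) := fun vj =>
    AddMonoidHom.mk' (fun X => (I.model.e k).symm ((X vj.1).1 *ᵥ Pi.single vj.2 1)) fun X Y => by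
      rw [← map_add, ← Matrix.add_mulVec]
      rfl
  obtain ⟨M, hM⟩ := Row32.exists_isModel_of_family (act := actW) (fun _ => hJ k) col
    (fun vj σ X => (I.model.e k).injective (by
      show I.model.e k ((I.model.e k).symm ((levelMat I.model k σ * (X vj.1).1) *ᵥ _)) =
        I.model.e k (JZero.torsionGaloisRep N (p ^ k) σ ((I.model.e k).symm _))
      rw [AddEquiv.apply_symm_apply, ← levelMat_mulVec, AddEquiv.apply_symm_apply,
        Matrix.mulVec_mulVec]))
    (fun X Y h => funext fun v => Subtype.ext (Matrix.ext_of_mulVec_single fun j =>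
      (I.model.e k).symm.injective (h (v, j))))
  have := Fintype.ofFinite B
  let q : ((Fin 2 → B) → W) →+ (Fin 2 → B) :=
    AddMonoidHom.mk' (fun X => ∑ v, θ (X v) *ᵥ v) fun X Y => by
      rw [← Finset.sum_add_distrib]
      exact Finset.sum_congr rfl fun v _ => by rw [← Matrix.add_mulVec, ← map_add]; rfl
  have hq : ∀ X, q X = ∑ v, θ (X v) *ᵥ v := fun X => rfl
  refine Row32.exists_isModel_of_surjective hM q (fun v => ?_) fun σ X => ?_
  · have h1 : θ ⟨Φ (Finsupp.single 1 1), ⟨_, rfl⟩⟩ = 1 := by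
      refine (hΨ _ _ rfl).trans ?_
      rw [repComb_single, map_one R, map_one, one_smul, map_one]
    refine ⟨Pi.single v ⟨Φ (Finsupp.single 1 1), ⟨_, rfl⟩⟩, ?_⟩
    rw [hq, Finset.sum_eq_single v (fun w _ hw => by
        rw [Pi.single_eq_of_ne hw, map_zero, Matrix.zero_mulVec])
      (fun h => absurd (Finset.mem_univ v) h), Pi.single_eq_same, h1, Matrix.one_mulVec]
  · rw [hq, hq, vecAct_apply, Matrix.mulVec_sum]
    exact Finset.sum_congr rfl fun v _ => by
      rw [Matrix.mulVec_mulVec, ← hθ]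
      rfl

/-- Conjugation keeps models. -/
theorem exists_isModel_conj [Finite B] {ρ ρ' : MRep B} (g : (Matrix (Fin 2) (Fin 2) B)ˣ)
    (h : ∀ σ, ρ' σ = g.1 * ρ σ * g⁻¹.1) (hM : ∃ M, IsModel p (vecAct ρ) M) :
    ∃ M, IsModel p (vecAct ρ') M := by
  obtain ⟨M, hM⟩ := hM
  refine Row32.exists_isModel_of_surjective hM (Matrix.mulVecLin g.1).toAddMonoidHom
    (fun v => ⟨g⁻¹.1 *ᵥ v, ?_⟩) fun σ v => ?_
  · show g.1 *ᵥ (g⁻¹.1 *ᵥ v) = v
    rw [Matrix.mulVec_mulVec, Units.mul_inv, Matrix.one_mulVec]
  · show g.1 *ᵥ (ρ σ *ᵥ v) = ρ' σ *ᵥ (g.1 *ᵥ v)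
    rw [Matrix.mulVec_mulVec, Matrix.mulVec_mulVec, h, mul_assoc _ g⁻¹.1, Units.inv_mul, mul_one]

end Fermat.Agent.General.Flat

end
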